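import Mathlib.RingTheory.Polynomial.Cyclotomic.Roots
import Mathlib.RingTheory.Norm.Basic
import Mathlib.NumberTheory.NumberField.Basic
import Mathlib.RingTheory.Ideal.Norm.AbsNorm
import Mathlib.LinearAlgebra.FreeModule.PID
import Mathlib.Data.ZMod.Basic

/-!
# S48 leaf D2: roots of unity modulo primes, norms of elements `≡ 1 mod m` (helper43)
-/

set_option autoImplicit false

namespace Fermat.Agent.S48.Cheb.H43

open Polynomial

/-- Powers of a primitive `m`-th root of unity agree iff the exponents agree mod `m`. -/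
lemma prim_pow_eq_iff {M : Type*} [CommMonoid M] {ζ : M} {m : ℕ} (hζ : IsPrimitiveRoot ζ m)
    (hm : m ≠ 0) (i j : ℕ) : ζ ^ i = ζ ^ j ↔ i ≡ j [MOD m] := by
  obtain ⟨u, rfl⟩ := hζ.isUnit hm
  have hu : IsPrimitiveRoot u m := IsPrimitiveRoot.coe_units_iff.mp hζ
  rw [← Units.val_pow_eq_pow_val, ← Units.val_pow_eq_pow_val, Units.val_inj,
    pow_eq_pow_iff_modEq, ← hu.eq_orderOf]

/-- Reduction modulo a prime `Q ∌ m` is injective on the powers of a primitive `m`-th root of
unity. -/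
lemma pow_eq_of_sub_mem {R : Type*} [CommRing R] [IsDomain R] {m : ℕ} (hm : m ≠ 0) {ζ : R}
    (hζ : IsPrimitiveRoot ζ m) (Q : Ideal R) [hQ : Q.IsPrime] (hmQ : (m : R) ∉ Q) {i j : ℕ}
    (h : ζ ^ i - ζ ^ j ∈ Q) : ζ ^ i = ζ ^ j := by
  have hroot : IsRoot (cyclotomic m R) ζ := hζ.isRoot_cyclotomic (Nat.pos_of_ne_zero hm)
  have hmk : NeZero ((m : ℕ) : R ⧸ Q) := by
    refine ⟨fun h0 => hmQ ?_⟩
    have : (Ideal.Quotient.mk Q) (m : R) = 0 := by simpa using h0
    exact Ideal.Quotient.eq_zero_iff_mem.mp this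
  have hroot' : IsRoot (cyclotomic m (R ⧸ Q)) (Ideal.Quotient.mk Q ζ) := by
    have := hroot.map (f := Ideal.Quotient.mk Q)
    rwa [map_cyclotomic] at this
  have hprim : IsPrimitiveRoot (Ideal.Quotient.mk Q ζ) m := (isRoot_cyclotomic_iff).mp hroot'
  have hij : (Ideal.Quotient.mk Q ζ) ^ i = (Ideal.Quotient.mk Q ζ) ^ j := by
    rw [← map_pow, ← map_pow, ← sub_eq_zero, ← map_sub]
    exact Ideal.Quotient.eq_zero_iff_mem.mpr h
  exact (prim_pow_eq_iff hζ hm i j).mpr ((prim_pow_eq_iff hprim hm i j).mp hij)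

/-- The norm of an element `≡ 1 mod m` is `≡ 1 mod m`. -/
lemma norm_intCast_zmod_eq_one {S : Type*} [CommRing S] [Module.Free ℤ S] [Module.Finite ℤ S]
    (m : ℕ) {x : S} (hx : x - 1 ∈ Ideal.span {(m : S)}) :
    ((Algebra.norm ℤ x : ℤ) : ZMod m) = 1 := by
  classical
  obtain ⟨y, hy⟩ := Ideal.mem_span_singleton'.mp hx
  have hx' : x = 1 + (m : ℤ) • y := by
    have : x = 1 + y * (m : S) := by rw [hy]; ring
    rw [this]
    simp [mul_comm]
  let b := Module.Free.chooseBasis ℤ S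
  rw [Algebra.norm_eq_matrix_det b, hx', map_add, map_one, map_smul]
  change (Int.castRingHom (ZMod m)) (1 + (m : ℤ) • Algebra.leftMulMatrix b y).det = 1
  rw [RingHom.map_det]
  have : (Int.castRingHom (ZMod m)).mapMatrix
      (1 + (m : ℤ) • Algebra.leftMulMatrix b y) = 1 := by
    ext i j
    rw [RingHom.mapMatrix_apply, Matrix.map_apply, Matrix.add_apply, Matrix.smul_apply,
      map_add, smul_eq_mul, map_mul]
    have h0 : (Int.castRingHom (ZMod m)) (m : ℤ) = 0 := by simp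
    rw [h0, zero_mul, add_zero]
    by_cases hij : i = j
    · subst hij
      simp [Matrix.one_apply_eq]
    · simp [Matrix.one_apply_ne hij]
  rw [this, Matrix.det_one]

end Fermat.Agent.S48.Cheb.H43
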