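import Fermat.Agent.S48.Cheb.H31_LLimit
import Mathlib.Topology.Connected.TotallyDisconnected
import Mathlib.Analysis.SpecialFunctions.Complex.Log
import Mathlib.Analysis.SpecialFunctions.Trigonometric.Complex

/-!
# S48 leaf D1, analytic part 3: the prime sum of `f` is bounded

If the partial sums of `f` are `O(n^{1-δ})` and `Re ∑_𝔭 f(𝔭) N𝔭^{-s}` is bounded below near `1⁺`,
then `∑_𝔭 f(𝔭) N𝔭^{-s}` is bounded on `(1, 2]`: `L(s, f)` tends to a nonzero limit at `1⁺`, so its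
continuous logarithm `G` is bounded.
-/

namespace Fermat.Agent.S48.Cheb.H31

open NumberField IsDedekindDomain Filter Topology Ideal
open Fermat.Agent.Lib.ZetaPrimes Fermat.Agent.Lib.SecondIneq.H31

variable {K : Type*} [Field K] [NumberField K]

/-- A continuous function on an interval all of whose values have the same exponential is
constant. -/
lemma eq_of_exp_eq_of_continuousOn {H : ℝ → ℂ} {a b : ℝ} (hH : ContinuousOn H (Set.Ioo a b))
    {ℓ : ℂ} (hexp : ∀ s ∈ Set.Ioo a b, Complex.exp (H s) = ℓ) {s t : ℝ}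
    (hs : s ∈ Set.Ioo a b) (ht : t ∈ Set.Ioo a b) : H s = H t := by
  have hT : IsDiscrete ((AddSubgroup.zmultiples (2 * Real.pi * Complex.I) : AddSubgroup ℂ) :
      Set ℂ) := by
    rw [isDiscrete_iff_discreteTopology]
    exact NormedSpace.discreteTopology_zmultiples (2 * Real.pi * Complex.I)
  have hc : ContinuousOn (fun u ↦ H u - H t) (Set.Ioo a b) := hH.sub continuousOn_const
  have hmaps : Set.MapsTo (fun u ↦ H u - H t) (Set.Ioo a b)
      ((AddSubgroup.zmultiples (2 * Real.pi * Complex.I) : AddSubgroup ℂ) : Set ℂ) := by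
    intro u hu
    have h1 : Complex.exp (H u - H t) = 1 := by
      rw [Complex.exp_sub, hexp u hu, hexp t ht]
      have hℓ : ℓ ≠ 0 := by
        rw [← hexp t ht]
        exact Complex.exp_ne_zero _
      exact div_self hℓ
    obtain ⟨n, hn⟩ := Complex.exp_eq_one_iff.mp h1
    rw [SetLike.mem_coe, AddSubgroup.mem_zmultiples_iff]
    refine ⟨n, ?_⟩
    show n • (2 * (Real.pi : ℂ) * Complex.I) = H u - H t
    rw [hn, zsmul_eq_mul]
  have h := isPreconnected_Ioo.constant_of_mapsTo hT hc hmaps hs ht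
  simp only [sub_self] at h
  exact sub_eq_zero.mp h

section

variable (f : Ideal (𝓞 K) →*₀ ℂ) (hf : ∀ I, ‖f I‖ ≤ 1)

include hf in
/-- If `Re ∑ f(𝔭) N𝔭^{-s}` is bounded below near `1⁺`, then `∑ f(𝔭) N𝔭^{-s}` is bounded on
`(1, 2]`. -/
theorem exists_norm_primeSumF_le {δ M : ℝ} (hδ : 0 < δ)
    (hpart : ∀ n : ℕ, 1 ≤ n → ‖∑ I ∈ idealsLe K n, f I‖ ≤ M * (n : ℝ) ^ (1 - δ))
    (hlow : ∃ C₀ : ℝ, ∀ᶠ s in 𝓝[>] (1 : ℝ), -C₀ ≤ (primeSumF f s).re) :
    ∃ C : ℝ, ∀ s : ℝ, 1 < s → s ≤ 2 → ‖primeSumF f s‖ ≤ C := by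
  obtain ⟨ℓ, hℓ⟩ := exists_tendsto_lValueF f hf hδ hpart
  obtain ⟨C₀, hC₀⟩ := hlow
  set C₂ : ℝ := ∑' v, primeTerm K 2 v with hC₂
  -- the limit is nonzero
  have hℓpos : 0 < ‖ℓ‖ := by
    have h1 : ∀ᶠ s in 𝓝[>] (1 : ℝ), Real.exp (-C₀ - C₂) ≤ ‖lValueF f s‖ := by
      filter_upwards [hC₀, self_mem_nhdsWithin] with s hs hs1
      refine le_trans ?_ (exp_le_norm_lValueF f hf hs1)
      rw [Real.exp_le_exp]
      linarith
    have h2 : Real.exp (-C₀ - C₂) ≤ ‖ℓ‖ := ge_of_tendsto hℓ.norm h1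
    exact lt_of_lt_of_le (Real.exp_pos _) h2
  have hℓ0 : ℓ ≠ 0 := norm_pos_iff.mp hℓpos
  -- near `1`, `L(s)` is close to `ℓ`
  have hnear : ∀ᶠ s in 𝓝[>] (1 : ℝ), ‖lValueF f s - ℓ‖ < ‖ℓ‖ / 2 := by
    have := (Metric.tendsto_nhds.mp hℓ) (‖ℓ‖ / 2) (by positivity)
    filter_upwards [this] with s hs
    rwa [dist_eq_norm] at hs
  obtain ⟨u, hu1, hu⟩ := mem_nhdsGT_iff_exists_Ioo_subset.mp hnear
  have hu1' : (1 : ℝ) < u := hu1
  -- the function `H`
  set H : ℝ → ℂ := fun s ↦ logL f s - Complex.log (lValueF f s / ℓ) with hH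
  have hw : ∀ s ∈ Set.Ioo 1 u, ‖lValueF f s / ℓ - 1‖ < 1 / 2 := by
    intro s hs
    have h1 : lValueF f s / ℓ - 1 = (lValueF f s - ℓ) / ℓ := by
      field_simp
    rw [h1, norm_div, div_lt_iff₀ hℓpos]
    have := hu hs
    rw [Set.mem_ofPred_eq] at this
    linarith
  have hslit : ∀ s ∈ Set.Ioo 1 u, lValueF f s / ℓ ∈ Complex.slitPlane := by
    intro s hs
    have h1 : lValueF f s / ℓ = 1 + (lValueF f s / ℓ - 1) := by ring
    rw [h1]
    exact Complex.mem_slitPlane_of_norm_lt_one ((hw s hs).trans (by norm_num))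
  have hLcont : ContinuousOn (lValueF f) (Set.Ioi 1) := by
    have h1 : ContinuousOn (fun s ↦ Complex.exp (logL f s)) (Set.Ioi 1) :=
      Complex.continuous_exp.comp_continuousOn (continuousOn_logL f hf)
    refine h1.congr fun s hs ↦ ?_
    exact (exp_logL f hf hs).symm
  have hsub : Set.Ioo 1 u ⊆ Set.Ioi 1 := fun s hs ↦ hs.1
  have hHcont : ContinuousOn H (Set.Ioo 1 u) := by
    refine ((continuousOn_logL f hf).mono hsub).sub ?_
    exact ContinuousOn.clog ((hLcont.mono hsub).div_const ℓ) hslit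
  have hHexp : ∀ s ∈ Set.Ioo 1 u, Complex.exp (H s) = ℓ := by
    intro s hs
    have hs1 : 1 < s := hs.1
    have hL0 : lValueF f s ≠ 0 := by
      rw [← exp_logL f hf hs1]
      exact Complex.exp_ne_zero _
    simp only [hH]
    rw [Complex.exp_sub, exp_logL f hf hs1, Complex.exp_log (div_ne_zero hL0 hℓ0)]
    field_simp
  -- a base point
  set s₀ : ℝ := (1 + u) / 2 with hs₀
  have hs₀mem : s₀ ∈ Set.Ioo 1 u := ⟨by rw [hs₀]; linarith, by rw [hs₀]; linarith⟩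
  have hconst : ∀ s ∈ Set.Ioo 1 u, H s = H s₀ := fun s hs ↦
    eq_of_exp_eq_of_continuousOn hHcont hHexp hs hs₀mem
  have hG1 : ∀ s ∈ Set.Ioo 1 u, ‖logL f s‖ ≤ ‖H s₀‖ + 1 := by
    intro s hs
    have h1 : logL f s = H s₀ + Complex.log (lValueF f s / ℓ) := by
      rw [← hconst s hs]
      simp only [hH]
      ring
    rw [h1]
    refine (norm_add_le _ _).trans ?_
    have h2 : ‖Complex.log (lValueF f s / ℓ)‖ ≤ 3 / 2 * ‖lValueF f s / ℓ - 1‖ := by
      have h3 : lValueF f s / ℓ = 1 + (lValueF f s / ℓ - 1) := by ring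
      have := Complex.norm_log_one_add_half_le_self (hw s hs).le
      rwa [← h3] at this
    have h4 := hw s hs
    linarith
  have hG2 : ∀ s : ℝ, u ≤ s → ‖logL f s‖ ≤ 3 / 2 * ∑' v, primeTerm K u v := fun s hs ↦
    norm_logL_le f hf hu1' hs
  refine ⟨max (‖H s₀‖ + 1) (3 / 2 * ∑' v, primeTerm K u v) + C₂, fun s hs1 _ ↦ ?_⟩
  have hGP := norm_logL_sub_primeSumF_le f hf hs1
  have hG : ‖logL f s‖ ≤ max (‖H s₀‖ + 1) (3 / 2 * ∑' v, primeTerm K u v) := by
    by_cases hsu : s < u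
    · exact (hG1 s ⟨hs1, hsu⟩).trans (le_max_left _ _)
    · exact (hG2 s (not_lt.mp hsu)).trans (le_max_right _ _)
  have h5 : primeSumF f s = logL f s - (logL f s - primeSumF f s) := by ring
  rw [h5]
  exact (norm_sub_le _ _).trans (add_le_add hG hGP)

end

end Fermat.Agent.S48.Cheb.H31
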