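import Fermat.Agent.S48.Cheb.H31_RayWt

/-!
# S48 leaf D1: `Cheb.Stmt_RayDensity`

Equality case of the second inequality `⟹` every fibre of the ray class map has Dirichlet density
`≥ 1/|A|` (degree one primes, `O(1)` error).
-/

namespace Fermat.Agent.S48.Cheb.H31

open NumberField IsDedekindDomain Filter Topology Ideal
open Fermat.Agent.Lib.ZetaPrimes Fermat.Agent.Lib.SecondIneq Fermat.Agent.Lib.SecondIneq.H31
open Fermat.Agent.S14.H66
open scoped BigOperators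

section Orth

variable {F : Type} [Field F] [NumberField F] {𝔪 : Ideal (𝓞 F)} {A : Type} [CommGroup A]
  [Finite A] {ψ : Ideal (𝓞 F) → A}

open Classical in
/-- Orthogonality of characters: the sum over a fibre. -/
lemma sum_char_mul_primeSumF [Fintype (A →* ℂˣ)] (hψ : IsRayMap 𝔪 ψ) (x : A) {s : ℝ}
    (hs : 1 < s) :
    ∑ χ : A →* ℂˣ, ((χ x⁻¹ : ℂˣ) : ℂ) * primeSumF (rayChar hψ χ) s =
      (Nat.card A : ℂ) * ((∑' v : {v // rayCls F 𝔪 ψ v = x}, rayWt F 𝔪 s v : ℝ) : ℂ) := by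
  have hsum := summable_rayWt F 𝔪 hs
  have hsumχ : ∀ χ : A →* ℂˣ, Summable
      (fun v => ((χ (x⁻¹ * rayCls F 𝔪 ψ v) : ℂˣ) : ℂ) * ((rayWt F 𝔪 s v : ℝ) : ℂ)) := fun χ =>
    summable_char_mul χ (fun v => x⁻¹ * rayCls F 𝔪 ψ v) (rayWt F 𝔪 s) (rayWt_nonneg F 𝔪 s) hsum
  have h0 : ∀ χ : A →* ℂˣ, ((χ x⁻¹ : ℂˣ) : ℂ) * primeSumF (rayChar hψ χ) s =
      ∑' v, ((χ (x⁻¹ * rayCls F 𝔪 ψ v) : ℂˣ) : ℂ) * ((rayWt F 𝔪 s v : ℝ) : ℂ) := by
    intro χ
    rw [primeSumF_rayChar, ← tsum_mul_left]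
    congr 1
    funext v
    rw [map_mul, Units.val_mul, mul_assoc]
  simp_rw [h0]
  rw [← Summable.tsum_finsetSum (fun χ _ => hsumχ χ)]
  have h1 : ∀ v, ∑ χ : A →* ℂˣ,
      ((χ (x⁻¹ * rayCls F 𝔪 ψ v) : ℂˣ) : ℂ) * ((rayWt F 𝔪 s v : ℝ) : ℂ) =
      (Nat.card A : ℂ) * (({v | rayCls F 𝔪 ψ v = x} : Set (HeightOneSpectrum (𝓞 F))).indicator
        (fun v => ((rayWt F 𝔪 s v : ℝ) : ℂ)) v) := by
    intro v
    rw [← Finset.sum_mul, sum_char_apply]
    by_cases hv : rayCls F 𝔪 ψ v = x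
    · have h2 : x⁻¹ * rayCls F 𝔪 ψ v = 1 := by rw [hv, inv_mul_cancel]
      rw [if_pos h2, Set.indicator_of_mem (by exact hv)]
    · have h2 : x⁻¹ * rayCls F 𝔪 ψ v ≠ 1 := by
        intro h
        apply hv
        rw [inv_mul_eq_one] at h
        exact h.symm
      rw [if_neg h2, Set.indicator_of_notMem (by exact hv)]
      simp
  simp_rw [h1]
  rw [tsum_mul_left]
  congr 1
  rw [Complex.ofReal_tsum]
  exact (tsum_subtype ({v | rayCls F 𝔪 ψ v = x} : Set (HeightOneSpectrum (𝓞 F)))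
    (fun v => ((rayWt F 𝔪 s v : ℝ) : ℂ))).symm

end Orth

section Lower

open Classical in
set_option linter.deprecated false in
/-- The lower bound for the trivial fibre. -/
lemma exists_tsum_fibre_one_ge (F L : Type) [Field F] [NumberField F] [Field L] [NumberField L]
    [Algebra F L] {𝔪 : Ideal (𝓞 F)} {A : Type} [CommGroup A] {ψ : Ideal (𝓞 F) → A}
    (T : Finset ℕ) (h𝔪 : 𝔪 ≠ ⊥)
    (hU : ∀ Q : Ideal (𝓞 L), Q.IsPrime → (Ideal.absNorm Q).Prime → Ideal.absNorm Q ∉ T →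
      IsCoprime (Q.under (𝓞 F)) 𝔪 → ψ (Q.under (𝓞 F)) = 1) :
    ∃ C : ℝ, ∀ᶠ s in 𝓝[>] (1 : ℝ), Real.log (1 / (s - 1)) - C
      ≤ (Module.finrank F L : ℝ) * ∑' v : {v // rayCls F 𝔪 ψ v = 1}, rayWt F 𝔪 s v := by
  have hsF := summable_primeTerm F
  have hsL := summable_primeTerm L
  obtain ⟨C1, hC1⟩ := primeSum_ge L
  obtain ⟨C2, hC2⟩ := notPrimeNorm_le L
  set B : Set (HeightOneSpectrum (𝓞 L)) :=
    {w | absNorm w.asIdeal ∈ T} ∪ {w | ¬ IsCoprime (w.asIdeal.under (𝓞 F)) 𝔪} with hB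
  set NP : Set (HeightOneSpectrum (𝓞 L)) := {w | ¬ (absNorm w.asIdeal).Prime} with hNP
  set D : Set (HeightOneSpectrum (𝓞 L)) :=
    {w | (absNorm w.asIdeal).Prime ∧ absNorm w.asIdeal ∉ T ∧
      IsCoprime (w.asIdeal.under (𝓞 F)) 𝔪} with hD
  set V : Set (HeightOneSpectrum (𝓞 F)) :=
    {v | IsCoprime v.asIdeal 𝔪 ∧ ψ v.asIdeal = 1} with hV
  have hBfin : B.Finite := (finite_absNorm_mem L T).union (finite_not_isCoprime_under F L h𝔪)
  refine ⟨C1 + C2 + B.ncard, ?_⟩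
  filter_upwards [hC1, self_mem_nhdsWithin] with s hs hs1
  have hs1' : (1 : ℝ) < s := hs1
  have hSL := hsL s hs1'
  have hSF := hsF s hs1'
  have hsplit := hSL.tsum_subtype_add_tsum_subtype_compl D
  have hcompl : ∑' w : (Dᶜ : Set _), primeTerm L s w
      ≤ ∑' w : NP, primeTerm L s w + ∑' w : B, primeTerm L s w := by
    rw [tsum_subtype (Dᶜ) (primeTerm L s), tsum_subtype NP (primeTerm L s),
      tsum_subtype B (primeTerm L s), ← (hSL.indicator NP).tsum_add (hSL.indicator B)]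
    refine (hSL.indicator _).tsum_le_tsum (fun w => ?_)
      ((hSL.indicator NP).add (hSL.indicator B))
    by_cases hw : w ∈ Dᶜ
    · rw [Set.indicator_of_mem hw]
      by_cases hw1 : w ∈ NP
      · rw [Set.indicator_of_mem hw1]
        have := Set.indicator_nonneg (s := B) (f := primeTerm L s)
          (fun w _ => primeTerm_nonneg' L s w) w
        linarith
      · have hw2 : w ∈ B := by
          by_contra hw2
          apply hw
          have h1 : absNorm w.asIdeal ∉ T := fun h => hw2 (Or.inl h)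
          have h2 : IsCoprime (w.asIdeal.under (𝓞 F)) 𝔪 := by
            by_contra h
            exact hw2 (Or.inr h)
          exact ⟨not_not.mp hw1, h1, h2⟩
        rw [Set.indicator_of_mem hw2]
        have := Set.indicator_nonneg (s := NP) (f := primeTerm L s)
          (fun w _ => primeTerm_nonneg' L s w) w
        linarith
    · rw [Set.indicator_of_notMem hw]
      exact add_nonneg
        (Set.indicator_nonneg (fun w _ => primeTerm_nonneg' L s w) w)
        (Set.indicator_nonneg (fun w _ => primeTerm_nonneg' L s w) w)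
  have hNPle : ∑' w : NP, primeTerm L s w ≤ C2 := hC2 s hs1'
  have hBle : ∑' w : B, primeTerm L s w ≤ B.ncard :=
    NumberField.Set.primeIdealZetaSum_le_card_of_finite hBfin (by linarith)
  have hDle := tsum_le_finrank_mul_set F L V D (fun w hw =>
    ⟨hw.1, hw.2.2, hU w.asIdeal w.isPrime hw.1 hw.2.1 hw.2.2⟩) s hSF hSL
  have hVle : ∑' v : V, primeTerm F s v ≤ ∑' v : {v // rayCls F 𝔪 ψ v = 1}, rayWt F 𝔪 s v := by
    have e1 := tsum_subtype V (primeTerm F s)
    have e2 : ∑' v : {v // rayCls F 𝔪 ψ v = 1}, rayWt F 𝔪 s v =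
        ∑' v, ({v | rayCls F 𝔪 ψ v = 1} : Set (HeightOneSpectrum (𝓞 F))).indicator
          (rayWt F 𝔪 s) v :=
      tsum_subtype ({v | rayCls F 𝔪 ψ v = 1} : Set (HeightOneSpectrum (𝓞 F))) (rayWt F 𝔪 s)
    rw [e1, e2]
    refine (hSF.indicator V).tsum_le_tsum (fun v => ?_) ((summable_rayWt F 𝔪 hs1').indicator _)
    by_cases hv : v ∈ V
    · have hcv : rayCls F 𝔪 ψ v = 1 := by
        rw [rayCls, if_pos hv.1]
        exact hv.2
      have hv' : v ∈ ({v | rayCls F 𝔪 ψ v = 1} : Set (HeightOneSpectrum (𝓞 F))) := hcv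
      rw [Set.indicator_of_mem hv, Set.indicator_of_mem hv', rayWt, if_pos hv.1]
    · rw [Set.indicator_of_notMem hv]
      exact Set.indicator_nonneg (fun v _ => rayWt_nonneg F 𝔪 s v) v
  have hfin0 : (0 : ℝ) ≤ (Module.finrank F L : ℝ) := Nat.cast_nonneg _
  have hfinal := mul_le_mul_of_nonneg_left hVle hfin0
  linarith

end Lower

section Main

variable (F L : Type) [Field F] [NumberField F] [Field L] [NumberField L] [Algebra F L]

set_option linter.deprecated false in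
set_option maxHeartbeats 800000 in
/-- **D1** for a fixed pair `F ⊆ L`. -/
theorem rayDensity_of (𝔪 : Ideal (𝓞 F)) (A : Type) [CommGroup A] [Finite A]
    (ψ : Ideal (𝓞 F) → A) (T : Finset ℕ) (h𝔪 : 𝔪 ≠ ⊥) (hψ : IsRayMap 𝔪 ψ)
    (hU : ∀ Q : Ideal (𝓞 L), Q.IsPrime → (Ideal.absNorm Q).Prime → Ideal.absNorm Q ∉ T →
      IsCoprime (Q.under (𝓞 F)) 𝔪 → ψ (Q.under (𝓞 F)) = 1)
    (hdeg : Module.finrank F L ≤ Nat.card A) (x : A) :
    ∃ C : ℝ, ∀ s : ℝ, 1 < s → s ≤ 2 →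
      Real.log (1 / (s - 1)) / (Nat.card A : ℝ) - C ≤
        ∑' v : {v : HeightOneSpectrum (𝓞 F) //
            IsCoprime v.asIdeal 𝔪 ∧ ψ v.asIdeal = x ∧ (Ideal.absNorm v.asIdeal).Prime},
          primeTerm F s v.1 := by
  classical
  have hfinχ : Finite (A →* ℂˣ) := finite_monoidHom_units A
  letI : Fintype (A →* ℂˣ) := Fintype.ofFinite _
  have hcard : Module.finrank F L = Nat.card A :=
    le_antisymm hdeg (T2m_of F L stmt_RayCount stmt_MultSum 𝔪 A ψ T h𝔪 hψ hU)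
  set a : ℝ := (Nat.card A : ℝ) with ha_def
  have ha : 0 < a := Nat.cast_pos.mpr Nat.card_pos
  -- upper bounds for the real parts, `χ ≠ 1`
  have hup : ∀ χ : A →* ℂˣ, ∃ C : ℝ, 0 ≤ C ∧ (χ ≠ 1 → ∀ s : ℝ, 1 < s → s ≤ 2 →
      (primeSumF (rayChar hψ χ) s).re ≤ C) := by
    intro χ
    by_cases hχ : χ = 1
    · exact ⟨0, le_rfl, fun h => absurd hχ h⟩
    · obtain ⟨C, hC⟩ := exists_re_tsum_rayChar_le stmt_RayCount stmt_MultSum h𝔪 hψ χ hχ
      exact ⟨max C 0, le_max_right _ _, fun _ s hs1 hs2 =>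
        (hC s hs1 hs2).trans (le_max_left _ _)⟩
  choose Cup hCup0 hCup using hup
  obtain ⟨C1, hC1⟩ := exists_tsum_rayWt_le F 𝔪
  obtain ⟨C2, hC2⟩ := exists_tsum_fibre_one_ge F L T h𝔪 hU
  have h12 : ∀ᶠ s in 𝓝[>] (1 : ℝ), 1 < s ∧ s ≤ 2 := by
    have : Set.Ioc (1 : ℝ) 2 ∈ 𝓝[>] (1 : ℝ) := Ioc_mem_nhdsGT (by norm_num)
    filter_upwards [this] with s hs using hs
  have hRe : ∀ (y : A) (s : ℝ), ((Nat.card A : ℂ) *
      ((∑' v : {v // rayCls F 𝔪 ψ v = y}, rayWt F 𝔪 s v : ℝ) : ℂ)).re =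
      a * ∑' v : {v // rayCls F 𝔪 ψ v = y}, rayWt F 𝔪 s v := by
    intro y s
    rw [← Complex.ofReal_natCast, ← Complex.ofReal_mul, Complex.ofReal_re]
  -- Step A: lower bounds for the real parts
  have hA : ∀ χ₀ : A →* ℂˣ, χ₀ ≠ 1 → ∃ C₀ : ℝ, ∀ᶠ s in 𝓝[>] (1 : ℝ),
      -C₀ ≤ (primeSumF (rayChar hψ χ₀) s).re := by
    intro χ₀ hχ₀
    refine ⟨C2 + C1 + ∑ χ, Cup χ, ?_⟩
    filter_upwards [hC1, hC2, h12] with s h1 h2 hs
    obtain ⟨hs1, hs2⟩ := hs
    have horth := sum_char_mul_primeSumF hψ (1 : A) hs1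
    simp only [inv_one, map_one, Units.val_one, one_mul] at horth
    have hre := congrArg Complex.re horth
    rw [Complex.re_sum, hRe] at hre
    have hterm : ∀ χ : A →* ℂˣ, (primeSumF (rayChar hψ χ) s).re ≤
        (if χ = χ₀ then (primeSumF (rayChar hψ χ₀) s).re else 0) +
        (if χ = 1 then Real.log (1 / (s - 1)) + C1 else 0) + Cup χ := by
      intro χ
      by_cases h0 : χ = χ₀
      · subst h0
        rw [if_pos rfl, if_neg hχ₀]
        have := hCup0 χ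
        linarith
      · rw [if_neg h0]
        by_cases h1' : χ = 1
        · subst h1'
          rw [if_pos rfl, primeSumF_rayChar_one, Complex.ofReal_re]
          have := hCup0 (1 : A →* ℂˣ)
          linarith
        · rw [if_neg h1']
          have := hCup χ h1' s hs1 hs2
          linarith
    have hsum : ∑ χ : A →* ℂˣ, (primeSumF (rayChar hψ χ) s).re ≤
        (primeSumF (rayChar hψ χ₀) s).re + (Real.log (1 / (s - 1)) + C1) + ∑ χ, Cup χ := by
      refine (Finset.sum_le_sum fun χ _ => hterm χ).trans ?_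
      rw [Finset.sum_add_distrib, Finset.sum_add_distrib,
        Finset.sum_ite_eq' Finset.univ χ₀, Finset.sum_ite_eq' Finset.univ (1 : A →* ℂˣ),
        if_pos (Finset.mem_univ _), if_pos (Finset.mem_univ _)]
    have h2' : Real.log (1 / (s - 1)) - C2 ≤
        a * ∑' v : {v // rayCls F 𝔪 ψ v = 1}, rayWt F 𝔪 s v := by
      have : (Module.finrank F L : ℝ) = a := by rw [ha_def, hcard]
      rw [← this]
      exact h2
    linarith
  -- Step B: bounds for the norms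
  have hδ : (0 : ℝ) < (Module.finrank ℚ F : ℝ)⁻¹ := by
    have : 0 < Module.finrank ℚ F := Module.finrank_pos
    positivity
  have hB : ∀ χ : A →* ℂˣ, ∃ B : ℝ, 0 ≤ B ∧ (χ ≠ 1 → ∀ s : ℝ, 1 < s → s ≤ 2 →
      ‖primeSumF (rayChar hψ χ) s‖ ≤ B) := by
    intro χ
    by_cases hχ : χ = 1
    · exact ⟨0, le_rfl, fun h => absurd hχ h⟩
    · obtain ⟨M, hM⟩ := exists_partial_sum_rayChar_le stmt_RayCount h𝔪 hψ χ hχ
      have hpart : ∀ n : ℕ, 1 ≤ n → ‖∑ I ∈ idealsLe F n, rayChar hψ χ I‖ ≤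
          M * (n : ℝ) ^ (1 - (Module.finrank ℚ F : ℝ)⁻¹) := by
        intro n hn
        refine hM n hn (idealsLe F n) (fun I => ?_)
        rw [mem_idealsLe]
        tauto
      obtain ⟨B, hB⟩ := exists_norm_primeSumF_le (rayChar hψ χ) (norm_rayChar_le hψ χ) hδ hpart
        (hA χ hχ)
      exact ⟨max B 0, le_max_right _ _, fun _ s hs1 hs2 =>
        (hB s hs1 hs2).trans (le_max_left _ _)⟩
  choose Bχ hB0 hBχ using hB
  -- Step C: the fibre over `x`
  obtain ⟨C3, hC3⟩ := exists_tsum_rayWt_ge F h𝔪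
  obtain ⟨Cnp, hCnp⟩ := notPrimeNorm_le F
  refine ⟨(C3 + ∑ χ, Bχ χ) / a + Cnp, fun s hs1 hs2 => ?_⟩
  have horth := sum_char_mul_primeSumF hψ x hs1
  have hre := congrArg Complex.re horth
  rw [Complex.re_sum, hRe] at hre
  have hterm : ∀ χ : A →* ℂˣ, (if χ = 1 then ∑' v, rayWt F 𝔪 s v else 0) - Bχ χ ≤
      (((χ x⁻¹ : ℂˣ) : ℂ) * primeSumF (rayChar hψ χ) s).re := by
    intro χ
    by_cases h1 : χ = 1
    · subst h1
      rw [if_pos rfl, primeSumF_rayChar_one]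
      simp only [MonoidHom.one_apply, Units.val_one, one_mul, Complex.ofReal_re]
      have := hB0 (1 : A →* ℂˣ)
      linarith
    · rw [if_neg h1, zero_sub]
      have h2 : |(((χ x⁻¹ : ℂˣ) : ℂ) * primeSumF (rayChar hψ χ) s).re| ≤
          ‖((χ x⁻¹ : ℂˣ) : ℂ) * primeSumF (rayChar hψ χ) s‖ := Complex.abs_re_le_norm _
      rw [norm_mul, norm_unitChar_eq_one, one_mul] at h2
      have h3 := hBχ χ h1 s hs1 hs2
      have h4 := (abs_le.mp (h2.trans h3)).1
      exact h4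
  have hsum : ∑' v, rayWt F 𝔪 s v - ∑ χ, Bχ χ ≤
      a * ∑' v : {v // rayCls F 𝔪 ψ v = x}, rayWt F 𝔪 s v := by
    rw [← hre]
    refine le_trans (le_of_eq ?_) (Finset.sum_le_sum fun χ _ => hterm χ)
    rw [Finset.sum_sub_distrib, Finset.sum_ite_eq' Finset.univ (1 : A →* ℂˣ),
      if_pos (Finset.mem_univ _)]
  have hC3s := hC3 s hs1 hs2
  -- Step D: degree one primes
  have hSF := summable_primeTerm F s hs1
  have hSW := summable_rayWt F 𝔪 hs1
  set D1 : Set (HeightOneSpectrum (𝓞 F)) :=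
    {v | IsCoprime v.asIdeal 𝔪 ∧ ψ v.asIdeal = x ∧ (Ideal.absNorm v.asIdeal).Prime} with hD1
  set NP : Set (HeightOneSpectrum (𝓞 F)) := {v | ¬ (absNorm v.asIdeal).Prime} with hNP
  have hNPle : ∑' v : NP, primeTerm F s v ≤ Cnp := hCnp s hs1
  have hD : ∑' v : {v // rayCls F 𝔪 ψ v = x}, rayWt F 𝔪 s v ≤
      ∑' v : D1, primeTerm F s v + ∑' v : NP, primeTerm F s v := by
    have e0 : ∑' v : {v // rayCls F 𝔪 ψ v = x}, rayWt F 𝔪 s v =
        ∑' v, ({v | rayCls F 𝔪 ψ v = x} : Set (HeightOneSpectrum (𝓞 F))).indicator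
          (rayWt F 𝔪 s) v :=
      tsum_subtype ({v | rayCls F 𝔪 ψ v = x} : Set (HeightOneSpectrum (𝓞 F))) (rayWt F 𝔪 s)
    rw [e0, tsum_subtype D1 (primeTerm F s), tsum_subtype NP (primeTerm F s),
      ← (hSF.indicator D1).tsum_add (hSF.indicator NP)]
    refine (hSW.indicator _).tsum_le_tsum (fun v => ?_)
      ((hSF.indicator D1).add (hSF.indicator NP))
    have hnn : 0 ≤ D1.indicator (primeTerm F s) v + NP.indicator (primeTerm F s) v :=
      add_nonneg (Set.indicator_nonneg (fun v _ => primeTerm_nonneg' F s v) v)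
        (Set.indicator_nonneg (fun v _ => primeTerm_nonneg' F s v) v)
    by_cases hv : rayCls F 𝔪 ψ v = x
    · rw [Set.indicator_of_mem (by exact hv)]
      by_cases hc : IsCoprime v.asIdeal 𝔪
      · have hψv : ψ v.asIdeal = x := by
          rw [rayCls, if_pos hc] at hv
          exact hv
        rw [rayWt, if_pos hc]
        by_cases hp : (absNorm v.asIdeal).Prime
        · have hvD : v ∈ D1 := ⟨hc, hψv, hp⟩
          rw [Set.indicator_of_mem hvD]
          have := Set.indicator_nonneg (s := NP) (f := primeTerm F s)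
            (fun v _ => primeTerm_nonneg' F s v) v
          linarith
        · have hvN : v ∈ NP := hp
          rw [Set.indicator_of_mem hvN]
          have := Set.indicator_nonneg (s := D1) (f := primeTerm F s)
            (fun v _ => primeTerm_nonneg' F s v) v
          linarith
      · rw [rayWt, if_neg hc]
        exact hnn
    · rw [Set.indicator_of_notMem (by exact hv)]
      exact hnn
  -- conclusion
  have hfin : Real.log (1 / (s - 1)) / a - ((C3 + ∑ χ, Bχ χ) / a) ≤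
      ∑' v : {v // rayCls F 𝔪 ψ v = x}, rayWt F 𝔪 s v := by
    rw [← sub_div, div_le_iff₀ ha]
    linarith
  have hgoal : ∑' v : D1, primeTerm F s v =
      ∑' v : {v : HeightOneSpectrum (𝓞 F) //
            IsCoprime v.asIdeal 𝔪 ∧ ψ v.asIdeal = x ∧ (Ideal.absNorm v.asIdeal).Prime},
          primeTerm F s v.1 := rfl
  rw [← hgoal]
  linarith

end Main

/-- **S48 leaf D1**: `Cheb.Stmt_RayDensity`. -/
theorem stmt_RayDensity : Fermat.Agent.S48.Cheb.Stmt_RayDensity := by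
  intro F L _ _ _ _ _ 𝔪 A _ _ ψ T h𝔪 hψ hU hdeg x
  exact rayDensity_of F L 𝔪 A ψ T h𝔪 hψ hU hdeg x

end Fermat.Agent.S48.Cheb.H31
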