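import Fermat.Agent.S48.Cheb.H43_Cyc
import Fermat.Agent.S48.Cheb.H31_RayDensity

/-!
# S48 leaf D2: the cyclotomic case of Chebotarev, unconditional (helper43, on helper31's D1)
-/

namespace Fermat.Agent.S48.Cheb.H43

/-- **D2**: the cyclotomic case of Chebotarev. -/
theorem stmt_ChebCyc : Stmt_ChebCyc :=
  chebCyc_of Fermat.Agent.S48.Cheb.H31.stmt_RayDensity

end Fermat.Agent.S48.Cheb.H43
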