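import Fermat.Agent.S48.Cheb.H78_Cross
import Fermat.Agent.S48.Cheb.H43_ChebCyc
import Fermat.Agent.S48.Cheb.H43_BridgeMain

/-!
# S48 leaf D: Chebotarev (lower bound form with loss), unconditional

`stmt_ChebNF : Stmt_ChebNF` (D3 on D2) and `stmt_Cheb : S48.Stmt_Cheb` (D4 on D3).
-/

set_option autoImplicit false

namespace Fermat.Agent.S48.Cheb.H78

/-- **D3**, unconditional. -/
theorem stmt_ChebNF : Stmt_ChebNF :=
  chebNF_of Fermat.Agent.S48.Cheb.H43.stmt_ChebCyc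

/-- **D** (Chebotarev for `Γℚ`), unconditional. -/
theorem stmt_Cheb : Fermat.Agent.S48.Stmt_Cheb :=
  Fermat.Agent.S48.Cheb.H43.cheb_of_nf stmt_ChebNF

end Fermat.Agent.S48.Cheb.H78
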