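import Fermat.Agent.S48.Defs
import Fermat.Agent.Lib.SecondIneq.Defs
import Fermat.Agent.Lib.FrobDensity.Defs

/-!
# S48 leaf D (Chebotarev, lower bound with loss): interfaces

Owner: helper43.  Plan: `NOTES/plan/W_S48.md` §4 (D).  Chebotarev's field crossing proof, no class
field theory.  Formalism of item 61 (`Lib/FrobDensity`): `L/ℚ` Galois, primes
`w : HeightOneSpectrum (𝓞 L)`, `Unram L w`, weight `wt L s w = |D_w| · p_w ^ (-s)`.

* `Stmt_RayDensity` (D1, analytic): equality case of the second inequality `⟹` every fibre of the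
  ray map has Dirichlet density `≥ 1/|A|`, with `O(1)` error (degree one primes only);
* `Stmt_ChebCyc`    (D2): the cyclotomic case inside a Galois `N/ℚ ∋ ζ_m`: if `⟨a⟩` acts
  faithfully on `ζ_m` and no power of `a` inverts `ζ_m`, the primes with Frobenius `a` have
  weighted density `≥ 1`;
* `Stmt_ChebNF`     (D3): Chebotarev for `L/ℚ` with loss `1 - η`, by crossing with `ℚ(ζ_m)`;
* D4: `Stmt_ChebNF → S48.Stmt_Cheb` (bridge to `Γℚ`).
-/

set_option autoImplicit false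

namespace Fermat.Agent.S48.Cheb

open NumberField IsDedekindDomain Ideal
open Fermat.Agent.Lib

/-- The unramified primes of `L` with Frobenius element equal to `g`. -/
def frobEq (L : Type) [Field L] [NumberField L] (g : L ≃ₐ[ℚ] L) :
    Set (HeightOneSpectrum (𝓞 L)) :=
  {w | FrobDensity.Unram L w ∧ IsArithFrobAt ℤ g w.asIdeal}

/-- **D1 (RayDensity)**.  `F ⊆ L` number fields, `ψ` a ray map mod `𝔪` onto `A` which is trivial
on the primes of `F` under the degree one primes of `L`, and `[L : F] ≤ |A|` (so `=`, by the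
second inequality).  Then for every `x ∈ A` the primes `v ∤ 𝔪` of `F` of degree one with
`ψ v = x` satisfy `∑ N v ^ (-s) ≥ (1/|A|) log (1/(s-1)) - C` on `(1, 2]`.

(Proof: for `χ ≠ 1`, `Re ∑ χ(ψ v) N v^{-s}` is bounded above (`Stmt_MultSum`, `Stmt_RayCount`),
and their sum is bounded below by the hypothesis; so `|L(s, χ)| ≥ c > 0`; `L(s, χ)` has a limit at
`1⁺` (Abel summation), so a continuous logarithm is bounded; orthogonality of characters.) -/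
def Stmt_RayDensity : Prop :=
  ∀ (F L : Type) [Field F] [NumberField F] [Field L] [NumberField L] [Algebra F L]
    (𝔪 : Ideal (𝓞 F)) (A : Type) [CommGroup A] [Finite A] (ψ : Ideal (𝓞 F) → A) (T : Finset ℕ),
    𝔪 ≠ ⊥ → SecondIneq.IsRayMap 𝔪 ψ →
    (∀ Q : Ideal (𝓞 L), Q.IsPrime → (Ideal.absNorm Q).Prime → Ideal.absNorm Q ∉ T →
      IsCoprime (Q.under (𝓞 F)) 𝔪 → ψ (Q.under (𝓞 F)) = 1) →
    Module.finrank F L ≤ Nat.card A →
    ∀ x : A, ∃ C : ℝ, ∀ s : ℝ, 1 < s → s ≤ 2 →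
      Real.log (1 / (s - 1)) / (Nat.card A : ℝ) - C ≤
        ∑' v : {v : HeightOneSpectrum (𝓞 F) //
            IsCoprime v.asIdeal 𝔪 ∧ ψ v.asIdeal = x ∧ (Ideal.absNorm v.asIdeal).Prime},
          ZetaPrimes.primeTerm F s v.1

/-- **D2 (cyclotomic case)**.  `N/ℚ` Galois, `ζ ∈ N` a primitive `m`-th root of unity,
`a ∈ Gal(N/ℚ)` such that `⟨a⟩` acts faithfully on `ζ` and no power of `a` inverts `ζ`.  Then
`∑_{Frob_w = a} |D_w| p_w^{-s} ≥ log (1/(s-1)) - C` on `(1, 2]`.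

(`E` = fixed field of `a`: `N = E(ζ)`, `E` is totally complex, `ψ(I) = N(I) mod m` is a ray map
mod `m 𝓞_E` onto `⟨t⟩ ≤ (ℤ/m)ˣ`, `a ζ = ζ ^ t`; apply D1 with `x = t`.) -/
def Stmt_ChebCyc : Prop :=
  ∀ (N : Type) [Field N] [NumberField N] [IsGalois ℚ N] (m : ℕ) (ζ : N) (a : N ≃ₐ[ℚ] N),
    m ≠ 0 → IsPrimitiveRoot ζ m →
    (∀ k : ℕ, (a ^ k) ζ = ζ → a ^ k = 1) →
    (∀ k : ℕ, (a ^ k) ζ ≠ ζ⁻¹) →
    ∃ C : ℝ, ∀ s : ℝ, 1 < s → s ≤ 2 →
      Real.log (1 / (s - 1)) - C ≤ ∑' w : frobEq N a, FrobDensity.wt N s w.1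

/-- **D3 (Chebotarev for number fields, with loss)**: for `L/ℚ` Galois, `g ∈ Gal(L/ℚ)`, `η > 0`:
`∑_{Frob_w = g} |D_w| p_w^{-s} ≥ (1 - η) log (1/(s-1)) - C` on `(1, 2]`.

(Crossing: `m = q₁ ⋯ q_r`, `q_i ≡ 1 mod ord g` distinct primes with `L ∩ ℚ(ζ_m) = ℚ` (all but
finitely many blocks of primes, since `L` has finitely many subfields and the `ℚ(ζ_m)` for
pairwise coprime `m` meet in `ℚ`); `N = L(ζ_m)`, `a_τ = (g, τ)` for the `τ ∈ (ℤ/m)ˣ` with
`ord g ∣ ord τ` and `-1 ∉ ⟨τ⟩` (proportion `≥ 1 - (ω(ord g) + 2) 2^{-r}`); D2 for each `a_τ`;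
`∑_{w' ∣ w} |D_{w'}| = [N : L] |D_w|`.) -/
def Stmt_ChebNF : Prop :=
  ∀ (L : Type) [Field L] [NumberField L] [IsGalois ℚ L] (g : L ≃ₐ[ℚ] L) (η : ℝ), 0 < η →
    ∃ C : ℝ, ∀ s : ℝ, 1 < s → s ≤ 2 →
      (1 - η) * Real.log (1 / (s - 1)) - C ≤ ∑' w : frobEq L g, FrobDensity.wt L s w.1

end Fermat.Agent.S48.Cheb
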