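import Fermat.Agent.S48.Cheb.Defs
import Fermat.Agent.Lib.FrobDensity.H31_Rel

/-!
# S48 leaf D3, sub-leaf CROSS (helper31): primes of `N` over primes of `L`

`ℚ ⊆ L ⊆ N` number fields, `L/ℚ` and `N/ℚ` Galois.  For finitely many `a ∈ Gal(N/ℚ)` with
`a|_L = g`:

`∑_a ∑_{w' unramified, Frob_w' = a} |D_w'| p^{-s} ≤ [N : L] ∑_{w unramified, Frob_w = g} |D_w| p^{-s}`

(`sum_tsum_frobEq_le`).  Proof: the Frobenius of an unramified prime is unique, so the sets
`frobEq N a` are disjoint; `w' ↦ w' ∩ 𝓞 L` maps them into `frobEq L g`; for unramified primes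
`|D| = f`, `f (w'/p) = f (w/p) f (w'/w)`, and `∑_{w' ∣ w} e f (w'/w) = [N : L]`.
-/

set_option autoImplicit false
set_option linter.unusedSectionVars false
set_option linter.style.haveILetI false

open NumberField IsDedekindDomain Ideal
open Fermat.Agent.Lib Fermat.Agent.Lib.FrobDensity
open scoped Pointwise

noncomputable section

namespace Fermat.Agent.S48.Cheb.H31

section tower

variable (L N : Type) [Field L] [NumberField L] [Field N] [NumberField N] [Algebra L N]

/-- The prime of `L` below a prime of `N`. -/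
def underL (w' : HeightOneSpectrum (𝓞 N)) : HeightOneSpectrum (𝓞 L) where
  asIdeal := w'.asIdeal.under (𝓞 L)
  isPrime := Ideal.IsPrime.under (𝓞 L) w'.asIdeal
  ne_bot := Ideal.under_ne_bot (𝓞 L) w'.ne_bot

lemma ratPrime_underL (w' : HeightOneSpectrum (𝓞 N)) :
    ZetaPrimes.ratPrime L (underL L N w') = ZetaPrimes.ratPrime N w' := by
  apply H12.eq_ratPrime_of_mem N w' (ZetaPrimes.ratPrime_prime L _)
  have h := ZetaPrimes.ratPrime_mem L (underL L N w')
  change ((ZetaPrimes.ratPrime L (underL L N w') : ℕ) : 𝓞 L) ∈ w'.asIdeal.under (𝓞 L) at h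
  rw [Ideal.under_def, Ideal.mem_comap, map_natCast] at h
  exact h

lemma unram_underL [IsGalois ℚ L] [IsGalois ℚ N] {w' : HeightOneSpectrum (𝓞 N)}
    (h : Unram N w') : Unram L (underL L N w') :=
  (FrobDensity.H31.inertia_under_eq_bot ℚ L N w'.asIdeal
    (FrobDensity.H31.ramificationIdx_int_eq_one N w'.asIdeal h)).2

lemma frob_underL [IsGalois ℚ L] [IsGalois ℚ N] {w' : HeightOneSpectrum (𝓞 N)}
    {a : N ≃ₐ[ℚ] N} (h : IsArithFrobAt ℤ a w'.asIdeal) :
    IsArithFrobAt ℤ (AlgEquiv.restrictNormalHom L a) (underL L N w').asIdeal := by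
  rw [H12.isArithFrobAt_int_iff] at h ⊢
  intro x
  rw [ratPrime_underL]
  change _ ∈ w'.asIdeal.under (𝓞 L)
  rw [Ideal.under_def, Ideal.mem_comap, map_sub, map_pow]
  have h1 : algebraMap (𝓞 L) (𝓞 N) ((AlgEquiv.restrictNormalHom L a) • x) =
      a • (algebraMap (𝓞 L) (𝓞 N) x) := by
    apply Subtype.ext
    change algebraMap L N ((AlgEquiv.restrictNormalHom L a) (x : L)) =
      a (algebraMap L N (x : L))
    exact AlgEquiv.restrictNormal_commutes a L (x : L)
  rw [h1]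
  exact h _

lemma mem_frobEq_underL [IsGalois ℚ L] [IsGalois ℚ N] {w' : HeightOneSpectrum (𝓞 N)}
    {a : N ≃ₐ[ℚ] N} (h : w' ∈ frobEq N a) :
    underL L N w' ∈ frobEq L (AlgEquiv.restrictNormalHom L a) :=
  ⟨unram_underL L N h.1, frob_underL L N h.2⟩

/-- Fibre bound: the decomposition groups of the unramified primes of `N` above a prime `w` of
`L` have orders summing to at most `[N : L] |D_w|`. -/
lemma sum_decompCard_le [IsGalois ℚ L] [IsGalois ℚ N] (w : HeightOneSpectrum (𝓞 L))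
    (U : Finset (HeightOneSpectrum (𝓞 N)))
    (hU : ∀ w' ∈ U, underL L N w' = w ∧ Unram N w') :
    ∑ w' ∈ U, decompCard N w' ≤ Module.finrank L N * decompCard L w := by
  classical
  rcases U.eq_empty_or_nonempty with rfl | ⟨w₀, hw₀⟩
  · simp
  have hw : Unram L w := (hU w₀ hw₀).1 ▸ unram_underL L N (hU w₀ hw₀).2
  have hwmax : w.asIdeal.IsMaximal := w.isMaximal
  have hfin : Finite (w.asIdeal.primesOver (𝓞 N)) :=
    Algebra.QuasiFinite.finite_primesOver w.asIdeal
  let _ : Fintype (w.asIdeal.primesOver (𝓞 N)) := Fintype.ofFinite _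
  have hsum := Ideal.sum_ramification_inertia_eq_finrank w.asIdeal (𝓞 N)
  rw [← IsFractionRing.finrank_eq (𝓞 L) L (𝓞 N) N] at hsum
  have hlies : ∀ w' ∈ U, w'.asIdeal.LiesOver w.asIdeal := by
    intro w' hw'
    refine ⟨?_⟩
    rw [← (hU w' hw').1]
    rfl
  let ψ : {w' // w' ∈ U} → w.asIdeal.primesOver (𝓞 N) :=
    fun w' => ⟨w'.1.asIdeal, w'.1.isPrime, hlies w'.1 w'.2⟩
  have hψ : Function.Injective ψ := by
    intro a b h
    apply Subtype.ext
    apply HeightOneSpectrum.ext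
    exact congrArg (fun q : w.asIdeal.primesOver (𝓞 N) => q.1) h
  have hterm : ∀ w' : {w' // w' ∈ U}, decompCard N w'.1 =
      decompCard L w * ((ψ w').1.ramificationIdx (𝓞 L) * (ψ w').1.inertiaDeg (𝓞 L)) := by
    intro w'
    have hun : Unram N w'.1 := (hU w'.1 w'.2).2
    haveI : w'.1.asIdeal.LiesOver w.asIdeal := hlies w'.1 w'.2
    have he1 : w'.1.asIdeal.ramificationIdx ℤ = 1 :=
      FrobDensity.H31.ramificationIdx_int_eq_one N w'.1.asIdeal hun
    have he2 : w'.1.asIdeal.ramificationIdx (𝓞 L) ∣ w'.1.asIdeal.ramificationIdx ℤ :=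
      Ideal.ramificationIdx_above_dvd (R := ℤ) (S := 𝓞 L) (T := 𝓞 N) w.asIdeal w'.1.asIdeal
    rw [he1, Nat.dvd_one] at he2
    change Nat.card (MulAction.stabilizer (N ≃ₐ[ℚ] N) w'.1.asIdeal) =
      Nat.card (MulAction.stabilizer (L ≃ₐ[ℚ] L) w.asIdeal) *
        (w'.1.asIdeal.ramificationIdx (𝓞 L) * w'.1.asIdeal.inertiaDeg (𝓞 L))
    rw [H84.card_stabilizer_eq_inertiaDeg w'.1.asIdeal hun,
      H84.card_stabilizer_eq_inertiaDeg w.asIdeal hw, he2, one_mul,
      Ideal.inertiaDeg_tower (R := ℤ) w.asIdeal w'.1.asIdeal]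
  calc ∑ w' ∈ U, decompCard N w' = ∑ w' ∈ U.attach, decompCard N w'.1 :=
        (Finset.sum_attach U (fun w' => decompCard N w')).symm
    _ = ∑ w' ∈ U.attach, decompCard L w *
          ((ψ w').1.ramificationIdx (𝓞 L) * (ψ w').1.inertiaDeg (𝓞 L)) :=
        Finset.sum_congr rfl (fun w' _ => hterm w')
    _ = decompCard L w * ∑ q ∈ U.attach.map ⟨ψ, hψ⟩,
          (q.1.ramificationIdx (𝓞 L) * q.1.inertiaDeg (𝓞 L)) := by
        rw [Finset.sum_map, Finset.mul_sum]
        rfl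
    _ ≤ decompCard L w * ∑ q : w.asIdeal.primesOver (𝓞 N),
          (q.1.ramificationIdx (𝓞 L) * q.1.inertiaDeg (𝓞 L)) :=
        Nat.mul_le_mul_left _ (Finset.sum_le_sum_of_subset (Finset.subset_univ _))
    _ = Module.finrank L N * decompCard L w := by rw [hsum, mul_comm]

lemma frobEq_disjoint [IsGalois ℚ N] {a b : N ≃ₐ[ℚ] N} (hab : a ≠ b) :
    Disjoint (frobEq N a) (frobEq N b) := by
  rw [Set.disjoint_left]
  intro w' ha hb
  apply hab
  have h1 := IsArithFrobAt.mul_inv_mem_inertia ha.2 hb.2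
  have h2 : w'.asIdeal.inertia (N ≃ₐ[ℚ] N) = ⊥ := ha.1
  rw [h2, Subgroup.mem_bot] at h1
  exact mul_inv_eq_one.mp h1

/-- `sum_tsum_frobEq_le`, with the fields as section variables. -/
theorem sum_tsum_frobEq_le_aux [IsGalois ℚ L] [IsGalois ℚ N]
    (g : L ≃ₐ[ℚ] L) (R : Finset (N ≃ₐ[ℚ] N))
    (hR : ∀ a ∈ R, AlgEquiv.restrictNormalHom L a = g) (s : ℝ) (hs : 1 < s) :
    ∑ a ∈ R, ∑' w : frobEq N a, FrobDensity.wt N s w.1
      ≤ (Module.finrank L N : ℝ) * ∑' w : frobEq L g, FrobDensity.wt L s w.1 := by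
  classical
  have hsN : Summable (FrobDensity.wt N s) := FrobDensity.H31.summable_wt N hs
  have hsL : Summable (FrobDensity.wt L s) := FrobDensity.H31.summable_wt L hs
  have hd : (R : Set (N ≃ₐ[ℚ] N)).Pairwise (Function.onFun Disjoint (frobEq N)) :=
    fun a _ b _ hab => frobEq_disjoint N hab
  have key := Summable.tsum_finset_bUnion_disjoint (f := FrobDensity.wt N s) hd
    (fun a _ => hsN.subtype _)
  rw [← key]
  have hnn : (0 : (↥(⋃ a ∈ R, frobEq N a)) → ℝ) ≤ fun x => FrobDensity.wt N s x.1 :=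
    fun x => FrobDensity.H31.wt_nonneg' N s x.1
  refine Real.tsum_le_of_sum_le hnn ?_
  intro u
  let U : Finset (HeightOneSpectrum (𝓞 N)) := u.map ⟨Subtype.val, Subtype.val_injective⟩
  have hUmem : ∀ w' ∈ U, ∃ a ∈ R, w' ∈ frobEq N a := by
    intro w' hw'
    obtain ⟨x, -, rfl⟩ := Finset.mem_map.mp hw'
    have := x.2
    simp only [Set.mem_iUnion] at this
    obtain ⟨a, ha, hmem⟩ := this
    exact ⟨a, ha, hmem⟩
  have hsumU : ∑ x ∈ u, FrobDensity.wt N s x.1 = ∑ w' ∈ U, FrobDensity.wt N s w' := by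
    rw [Finset.sum_map]
    rfl
  rw [hsumU]
  let V : Finset (HeightOneSpectrum (𝓞 L)) := U.image (underL L N)
  have hV : ∀ w ∈ V, w ∈ frobEq L g := by
    intro w hw
    obtain ⟨w', hw', rfl⟩ := Finset.mem_image.mp hw
    obtain ⟨a, ha, hmem⟩ := hUmem w' hw'
    rw [← hR a ha]
    exact mem_frobEq_underL L N hmem
  rw [← Finset.sum_fiberwise_of_maps_to (t := V) (g := underL L N)
    (fun w' hw' => Finset.mem_image_of_mem _ hw')]
  have hfib : ∀ w ∈ V, ∑ w' ∈ U with underL L N w' = w, FrobDensity.wt N s w' ≤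
      (Module.finrank L N : ℝ) * FrobDensity.wt L s w := by
    intro w _
    have h1 := sum_decompCard_le L N w (U.filter (underL L N · = w)) (by
      intro w' hw'
      rw [Finset.mem_filter] at hw'
      obtain ⟨a, _, hmem⟩ := hUmem w' hw'.1
      exact ⟨hw'.2, hmem.1⟩)
    have h2 : ∀ w' ∈ U.filter (underL L N · = w), FrobDensity.wt N s w' =
        (decompCard N w' : ℝ) * ((ZetaPrimes.ratPrime L w : ℕ) : ℝ) ^ (-s) := by
      intro w' hw'
      rw [Finset.mem_filter] at hw'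
      rw [← hw'.2, ratPrime_underL]
      rfl
    rw [Finset.sum_congr rfl h2, ← Finset.sum_mul]
    unfold FrobDensity.wt
    rw [← mul_assoc]
    apply mul_le_mul_of_nonneg_right _ (by positivity)
    exact_mod_cast h1
  calc ∑ w ∈ V, ∑ w' ∈ U with underL L N w' = w, FrobDensity.wt N s w'
      ≤ ∑ w ∈ V, (Module.finrank L N : ℝ) * FrobDensity.wt L s w := Finset.sum_le_sum hfib
    _ = (Module.finrank L N : ℝ) * ∑ w ∈ V, FrobDensity.wt L s w := by rw [Finset.mul_sum]
    _ ≤ (Module.finrank L N : ℝ) * ∑' w : frobEq L g, FrobDensity.wt L s w.1 := by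
      apply mul_le_mul_of_nonneg_left _ (by positivity)
      rw [tsum_subtype (frobEq L g) (FrobDensity.wt L s)]
      have h3 : ∑ w ∈ V, FrobDensity.wt L s w =
          ∑ w ∈ V, (frobEq L g).indicator (FrobDensity.wt L s) w :=
        Finset.sum_congr rfl (fun w hw => (Set.indicator_of_mem (hV w hw) _).symm)
      rw [h3]
      exact Summable.sum_le_tsum V
        (fun w _ => Set.indicator_nonneg (fun x _ => FrobDensity.H31.wt_nonneg' L s x) w)
        (hsL.indicator _)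

end tower

/-- **CROSS**: for `ℚ ⊆ L ⊆ N`, both Galois over `ℚ`, and finitely many `a ∈ Gal(N/ℚ)` restricting
to `g` on `L`: `∑_a ∑_{Frob_w' = a} |D_w'| p^{-s} ≤ [N : L] ∑_{Frob_w = g} |D_w| p^{-s}`. -/
theorem sum_tsum_frobEq_le (L N : Type) [Field L] [NumberField L] [IsGalois ℚ L]
    [Field N] [NumberField N] [IsGalois ℚ N] [Algebra L N]
    (g : L ≃ₐ[ℚ] L) (R : Finset (N ≃ₐ[ℚ] N))
    (hR : ∀ a ∈ R, AlgEquiv.restrictNormalHom L a = g) (s : ℝ) (hs : 1 < s) :
    ∑ a ∈ R, ∑' w : frobEq N a, FrobDensity.wt N s w.1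
      ≤ (Module.finrank L N : ℝ) * ∑' w : frobEq L g, FrobDensity.wt L s w.1 :=
  sum_tsum_frobEq_le_aux L N g R hR s hs

end Fermat.Agent.S48.Cheb.H31
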