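import Fermat.Agent.S48.Cheb.H31_LogL
import Mathlib.MeasureTheory.Function.SpecialFunctions.Basic
import Mathlib.MeasureTheory.Integral.DominatedConvergence

/-!
# S48 leaf D1, analytic part 2: `L(s, f)` has a limit at `1⁺`

If the partial sums of `f` are `O(n^{1-δ})`, then `L(s, f)` has a limit as `s → 1⁺` (Abel
summation, dominated convergence).
-/

namespace Fermat.Agent.S48.Cheb.H31

open NumberField IsDedekindDomain Filter Topology Ideal MeasureTheory
open Fermat.Agent.Lib.ZetaPrimes Fermat.Agent.Lib.SecondIneq.H31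

variable {K : Type*} [Field K] [NumberField K]

section

variable (f : Ideal (𝓞 K) →*₀ ℂ) (hf : ∀ I, ‖f I‖ ≤ 1)

include hf in
/-- `L(s, f)` has a limit at `1⁺`. -/
theorem exists_tendsto_lValueF {δ M : ℝ} (hδ : 0 < δ)
    (hpart : ∀ n : ℕ, 1 ≤ n → ‖∑ I ∈ idealsLe K n, f I‖ ≤ M * (n : ℝ) ^ (1 - δ)) :
    ∃ ℓ : ℂ, Tendsto (lValueF f) (𝓝[>] (1 : ℝ)) (𝓝 ℓ) := by
  set δ' : ℝ := min δ 1 with hδ'
  have hδ'pos : 0 < δ' := lt_min hδ one_pos
  have hδ'le : δ' ≤ 1 := min_le_right _ _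
  have hδ'δ : δ' ≤ δ := min_le_left _ _
  set r : ℝ := 1 - δ' with hr
  have hr0 : 0 ≤ r := by linarith
  have hM0 : 0 ≤ M := by
    have h := hpart 1 le_rfl
    simp only [Nat.cast_one, Real.one_rpow, mul_one] at h
    exact le_trans (norm_nonneg _) h
  set S : ℕ → ℂ := fun n ↦ ∑ k ∈ Finset.Icc 1 n, lCoeffF f k with hS
  have hbound : ∀ n : ℕ, 1 ≤ n → ‖S n‖ ≤ M * (n : ℝ) ^ r := by
    intro n hn
    simp only [hS]
    rw [sum_lCoeffF_eq_sum_idealsLe]
    refine (hpart n hn).trans ?_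
    refine mul_le_mul_of_nonneg_left ?_ hM0
    exact Real.rpow_le_rpow_of_exponent_le (by exact_mod_cast hn) (by linarith)
  have hO : (fun n : ℕ ↦ ∑ k ∈ Finset.Icc 1 n, lCoeffF f k) =O[atTop]
      fun n : ℕ ↦ (n : ℝ) ^ r := by
    refine Asymptotics.IsBigO.of_bound M ?_
    filter_upwards [eventually_ge_atTop 1] with n hn
    rw [Real.norm_of_nonneg (Real.rpow_nonneg (Nat.cast_nonneg _) _)]
    exact hbound n hn
  -- the integral
  set J : ℝ → ℂ := fun s ↦ ∫ t in Set.Ioi (1 : ℝ), S ⌊t⌋₊ * (t : ℂ) ^ (-((s : ℂ) + 1)) with hJ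
  have hrepr : ∀ s : ℝ, 1 < s → lValueF f s = (s : ℂ) * J s := by
    intro s hs
    have hsre : r < (s : ℂ).re := by
      simp only [Complex.ofReal_re]
      linarith
    rw [lValueF_eq_LSeries f hf hs,
      LSeries_eq_mul_integral (lCoeffF f) hr0 hsre (lseriesSummable_lCoeffF f hf hs) hO]
  set s₁ : ℝ := 1 - δ' / 2 with hs₁
  have hcont : ContinuousAt J 1 := by
    refine continuousAt_of_dominated (bound := fun t ↦ M * t ^ (r - s₁ - 1)) ?_ ?_ ?_ ?_
    · refine Filter.Eventually.of_forall fun s ↦ ?_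
      have hm1 : Measurable (fun t : ℝ ↦ S ⌊t⌋₊) :=
        (measurable_from_nat (f := S)).comp Nat.measurable_floor
      have hm2 : Measurable (fun t : ℝ ↦ (t : ℂ) ^ (-((s : ℂ) + 1))) :=
        Complex.measurable_ofReal.pow_const _
      exact (hm1.mul hm2).aestronglyMeasurable
    · have hmem : Set.Ioi s₁ ∈ 𝓝 (1 : ℝ) := Ioi_mem_nhds (by rw [hs₁]; linarith)
      filter_upwards [hmem] with s hs
      have hs' : s₁ < s := hs
      refine (ae_restrict_iff' measurableSet_Ioi).mpr (Filter.Eventually.of_forall ?_)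
      intro t ht
      have ht1 : (1 : ℝ) < t := ht
      have ht0 : (0 : ℝ) < t := by linarith
      have hfl : 1 ≤ ⌊t⌋₊ := Nat.floor_pos.mpr ht1.le
      rw [norm_mul, Complex.norm_cpow_eq_rpow_re_of_pos ht0]
      have hre : (-((s : ℂ) + 1)).re = -(s + 1) := by simp
      rw [hre]
      have h1 : ‖S ⌊t⌋₊‖ ≤ M * t ^ r := by
        refine (hbound _ hfl).trans (mul_le_mul_of_nonneg_left ?_ hM0)
        exact Real.rpow_le_rpow (Nat.cast_nonneg _) (Nat.floor_le ht0.le) hr0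
      calc ‖S ⌊t⌋₊‖ * t ^ (-(s + 1))
          ≤ (M * t ^ r) * t ^ (-(s + 1)) :=
            mul_le_mul_of_nonneg_right h1 (Real.rpow_nonneg ht0.le _)
        _ = M * t ^ (r - s - 1) := by
            rw [mul_assoc, ← Real.rpow_add ht0]
            congr 2
            ring
        _ ≤ M * t ^ (r - s₁ - 1) := by
            refine mul_le_mul_of_nonneg_left ?_ hM0
            exact Real.rpow_le_rpow_of_exponent_le ht1.le (by linarith)
    · have ha : r - s₁ - 1 < -1 := by rw [hr, hs₁]; linarith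
      exact (integrableOn_Ioi_rpow_of_lt ha one_pos).const_mul M
    · refine (ae_restrict_iff' measurableSet_Ioi).mpr (Filter.Eventually.of_forall ?_)
      intro t ht
      have ht1 : (1 : ℝ) < t := ht
      have ht0 : (t : ℂ) ≠ 0 := by
        rw [Ne, Complex.ofReal_eq_zero]
        linarith
      have hc : Continuous (fun s : ℝ ↦ (t : ℂ) ^ (-((s : ℂ) + 1))) :=
        Continuous.const_cpow ((Complex.continuous_ofReal.add continuous_const).neg) (Or.inl ht0)
      exact (continuous_const.mul hc).continuousAt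
  refine ⟨J 1, ?_⟩
  have h1 : Tendsto (fun s : ℝ ↦ (s : ℂ) * J s) (𝓝 (1 : ℝ)) (𝓝 (((1 : ℝ) : ℂ) * J 1)) :=
    (Complex.continuous_ofReal.continuousAt).mul hcont
  rw [Complex.ofReal_one, one_mul] at h1
  have h2 : Tendsto (fun s : ℝ ↦ (s : ℂ) * J s) (𝓝[>] (1 : ℝ)) (𝓝 (J 1)) :=
    h1.mono_left nhdsWithin_le_nhds
  refine h2.congr' ?_
  filter_upwards [self_mem_nhdsWithin] with s hs
  exact (hrepr s hs).symm

end

end Fermat.Agent.S48.Cheb.H31
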