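import Fermat.Agent.Lib.SecondIneq.H31_MultSum
import Mathlib.Analysis.SpecialFunctions.Complex.LogBounds
import Mathlib.Analysis.SpecialFunctions.Log.Summable
import Mathlib.Analysis.Normed.Group.FunctionSeries

/-!
# S48 leaf D1, analytic part 1: the logarithm of `L(s, f)`

`f : Ideal (𝓞 K) →*₀ ℂ` with `‖f‖ ≤ 1`.  For real `s > 1`:
`G(s) = ∑_𝔭 -log (1 - f(𝔭) N𝔭^{-s})` converges, `exp G(s) = L(s, f)`, `G` is continuous on `(1, ∞)`
and `‖G(s) - ∑_𝔭 f(𝔭) N𝔭^{-s}‖ ≤ ∑_𝔭 N𝔭^{-2}`.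
-/

namespace Fermat.Agent.S48.Cheb.H31

open NumberField IsDedekindDomain Filter Topology Ideal
open Fermat.Agent.Lib.ZetaPrimes Fermat.Agent.Lib.SecondIneq.H31

variable {K : Type*} [Field K] [NumberField K]

/-- The terms of the logarithm of the Euler product. -/
noncomputable def logTerm (f : Ideal (𝓞 K) →*₀ ℂ) (s : ℝ) (v : HeightOneSpectrum (𝓞 K)) : ℂ :=
  -Complex.log (1 - fPrimeTerm f s v)

/-- The logarithm of the Euler product. -/
noncomputable def logL (f : Ideal (𝓞 K) →*₀ ℂ) (s : ℝ) : ℂ := ∑' v, logTerm f s v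

/-- The sum over the primes. -/
noncomputable def primeSumF (f : Ideal (𝓞 K) →*₀ ℂ) (s : ℝ) : ℂ := ∑' v, fPrimeTerm f s v

section

variable (f : Ideal (𝓞 K) →*₀ ℂ) (hf : ∀ I, ‖f I‖ ≤ 1)

include hf

lemma norm_fPrimeTerm_le_half {s : ℝ} (hs : 1 ≤ s) (v : HeightOneSpectrum (𝓞 K)) :
    ‖fPrimeTerm f s v‖ ≤ 1 / 2 :=
  (norm_fPrimeTerm_le f hf s v).trans (primeTerm_le_half K hs v)

lemma norm_logTerm_le {s : ℝ} (hs : 1 ≤ s) (v : HeightOneSpectrum (𝓞 K)) :
    ‖logTerm f s v‖ ≤ 3 / 2 * primeTerm K s v := by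
  have h := Complex.norm_log_one_add_half_le_self (z := -fPrimeTerm f s v)
    (by rw [norm_neg]; exact norm_fPrimeTerm_le_half f hf hs v)
  rw [norm_neg, ← sub_eq_add_neg] at h
  rw [logTerm, norm_neg]
  exact h.trans (mul_le_mul_of_nonneg_left (norm_fPrimeTerm_le f hf s v) (by norm_num))

lemma summable_logTerm {s : ℝ} (hs : 1 < s) : Summable (logTerm f s) := by
  refine Summable.of_norm ?_
  exact Summable.of_nonneg_of_le (fun _ ↦ norm_nonneg _) (norm_logTerm_le f hf hs.le)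
    ((summable_primeTerm K s hs).mul_left _)

lemma norm_logTerm_sub_le {s : ℝ} (hs : 1 ≤ s) (v : HeightOneSpectrum (𝓞 K)) :
    ‖logTerm f s v - fPrimeTerm f s v‖ ≤ primeTerm K 2 v := by
  have hz : ‖fPrimeTerm f s v‖ ≤ 1 / 2 := norm_fPrimeTerm_le_half f hf hs v
  have hz1 : ‖-fPrimeTerm f s v‖ < 1 := by rw [norm_neg]; linarith
  have h := Complex.norm_log_one_add_sub_self_le hz1
  rw [norm_neg, ← sub_eq_add_neg] at h
  have h1 : logTerm f s v - fPrimeTerm f s v =
      -(Complex.log (1 - fPrimeTerm f s v) - -fPrimeTerm f s v) := by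
    rw [logTerm]; ring
  rw [h1, norm_neg]
  refine h.trans ?_
  have hinv : (1 - ‖fPrimeTerm f s v‖)⁻¹ ≤ 2 := by
    rw [inv_le_comm₀ (by linarith) (by norm_num)]
    linarith
  have hsq : ‖fPrimeTerm f s v‖ ^ 2 ≤ primeTerm K 2 v := by
    have h2 := norm_fPrimeTerm_le f hf s v
    have h3 : primeTerm K s v ≤ primeTerm K 1 v := primeTerm_anti K hs v
    have h4 : primeTerm K 1 v ^ 2 = primeTerm K 2 v := by
      have hN : (0 : ℝ) ≤ absNorm v.asIdeal := Nat.cast_nonneg _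
      rw [primeTerm, primeTerm, ← Real.rpow_natCast, ← Real.rpow_mul hN]
      norm_num
    rw [← h4]
    exact pow_le_pow_left₀ (norm_nonneg _) (h2.trans h3) 2
  calc ‖fPrimeTerm f s v‖ ^ 2 * (1 - ‖fPrimeTerm f s v‖)⁻¹ / 2
      ≤ ‖fPrimeTerm f s v‖ ^ 2 * 2 / 2 := by
        gcongr
    _ = ‖fPrimeTerm f s v‖ ^ 2 := by ring
    _ ≤ primeTerm K 2 v := hsq

/-- `‖G(s) - P(s)‖ ≤ ∑ N𝔭^{-2}`. -/
theorem norm_logL_sub_primeSumF_le {s : ℝ} (hs : 1 < s) :
    ‖logL f s - primeSumF f s‖ ≤ ∑' v, primeTerm K 2 v := by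
  rw [logL, primeSumF, ← (summable_logTerm f hf hs).tsum_sub (summable_fPrimeTerm f hf hs)]
  have hsum2 := summable_primeTerm K 2 (by norm_num)
  have hsn : Summable (fun v ↦ ‖logTerm f s v - fPrimeTerm f s v‖) :=
    Summable.of_nonneg_of_le (fun _ ↦ norm_nonneg _) (norm_logTerm_sub_le f hf hs.le) hsum2
  exact (norm_tsum_le_tsum_norm hsn).trans
    (hsn.tsum_le_tsum (norm_logTerm_sub_le f hf hs.le) hsum2)

/-- `exp G(s) = L(s, f)`. -/
theorem exp_logL {s : ℝ} (hs : 1 < s) : Complex.exp (logL f s) = lValueF f s := by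
  have h1 : HasProd (Complex.exp ∘ logTerm f s) (Complex.exp (logL f s)) :=
    (summable_logTerm f hf hs).hasSum.cexp
  have h2 := hasProd_lValueF f hf hs
  have heq : (Complex.exp ∘ logTerm f s) = fun v ↦ (1 - fPrimeTerm f s v)⁻¹ := by
    funext v
    have hne : 1 - fPrimeTerm f s v ≠ 0 := by
      intro h
      have h3 : fPrimeTerm f s v = 1 := (sub_eq_zero.mp h).symm
      have := norm_fPrimeTerm_le_half f hf hs.le v
      rw [h3, norm_one] at this
      norm_num at this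
    simp only [Function.comp_apply, logTerm]
    rw [Complex.exp_neg, Complex.exp_log hne]
  rw [heq] at h1
  exact h1.unique h2

/-- `‖G(s)‖ ≤ (3/2) ∑ N𝔭^{-a}` for `s ≥ a > 1`. -/
theorem norm_logL_le {a s : ℝ} (ha : 1 < a) (hs : a ≤ s) :
    ‖logL f s‖ ≤ 3 / 2 * ∑' v, primeTerm K a v := by
  have hs1 : 1 < s := ha.trans_le hs
  have hsa := summable_primeTerm K a ha
  have hb : ∀ v, ‖logTerm f s v‖ ≤ 3 / 2 * primeTerm K a v := fun v ↦
    (norm_logTerm_le f hf hs1.le v).trans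
      (mul_le_mul_of_nonneg_left (primeTerm_anti K hs v) (by norm_num))
  have hsn : Summable (fun v ↦ ‖logTerm f s v‖) :=
    Summable.of_nonneg_of_le (fun _ ↦ norm_nonneg _) hb (hsa.mul_left _)
  rw [logL, ← tsum_mul_left]
  exact (norm_tsum_le_tsum_norm hsn).trans (hsn.tsum_le_tsum hb (hsa.mul_left _))

omit hf in
lemma continuous_fPrimeTerm (v : HeightOneSpectrum (𝓞 K)) :
    Continuous (fun s : ℝ ↦ fPrimeTerm f s v) := by
  unfold fPrimeTerm primeTerm
  have hN : (absNorm v.asIdeal : ℝ) ≠ 0 := by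
    have := two_le_absNorm K v
    positivity
  have h1 : Continuous (fun s : ℝ ↦ (absNorm v.asIdeal : ℝ) ^ (-s)) :=
    (Real.continuous_const_rpow hN).comp continuous_neg
  exact continuous_const.mul (Complex.continuous_ofReal.comp h1)

/-- `G` is continuous on `(1, ∞)`. -/
theorem continuousOn_logL : ContinuousOn (logL f) (Set.Ioi 1) := by
  intro s₀ hs₀
  have hs₀' : (1 : ℝ) < s₀ := hs₀
  set a : ℝ := (1 + s₀) / 2 with ha
  have ha1 : 1 < a := by rw [ha]; linarith
  have has : a < s₀ := by rw [ha]; linarith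
  have hcont : ContinuousOn (fun s ↦ ∑' v, logTerm f s v) (Set.Ici a) := by
    refine continuousOn_tsum (u := fun v ↦ 3 / 2 * primeTerm K a v) (fun v ↦ ?_)
      ((summable_primeTerm K a ha1).mul_left _) (fun v s hs ↦ ?_)
    · unfold logTerm
      refine ContinuousOn.neg ?_
      refine ContinuousOn.clog ?_ ?_
      · exact (continuous_const.sub (continuous_fPrimeTerm f v)).continuousOn
      · intro s hs
        have hs1 : 1 ≤ s := ha1.le.trans hs
        have h := norm_fPrimeTerm_le_half f hf hs1 v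
        have h2 : 1 - fPrimeTerm f s v = 1 + -fPrimeTerm f s v := sub_eq_add_neg _ _
        rw [h2]
        exact Complex.mem_slitPlane_of_norm_lt_one (by rw [norm_neg]; linarith)
    · have hs1 : 1 ≤ s := ha1.le.trans hs
      exact (norm_logTerm_le f hf hs1 v).trans
        (mul_le_mul_of_nonneg_left (primeTerm_anti K hs v) (by norm_num))
  have hat : ContinuousAt (logL f) s₀ := hcont.continuousAt (Ici_mem_nhds has)
  exact hat.continuousWithinAt

/-- `exp (Re P(s) - ∑ N𝔭^{-2}) ≤ ‖L(s, f)‖`. -/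
theorem exp_le_norm_lValueF {s : ℝ} (hs : 1 < s) :
    Real.exp ((primeSumF f s).re - ∑' v, primeTerm K 2 v) ≤ ‖lValueF f s‖ := by
  rw [← exp_logL f hf hs, Complex.norm_exp, Real.exp_le_exp]
  have h := norm_logL_sub_primeSumF_le f hf hs
  have h1 : |(logL f s - primeSumF f s).re| ≤ ‖logL f s - primeSumF f s‖ :=
    Complex.abs_re_le_norm _
  have h2 := (abs_le.mp (h1.trans h)).1
  rw [Complex.sub_re] at h2
  linarith

end

end Fermat.Agent.S48.Cheb.H31
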