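import Fermat.Agent.S48.Cheb.H31_LogBound
import Fermat.Agent.Lib.SecondIneq.H31_T2m
import Fermat.Agent.S48.Cheb.Defs

/-!
# S48 leaf D1: the prime sums over the fibres of a ray class map (set-up)

`rayCls`, `rayWt`: class and weight of a prime of `F` (trivial class, weight `0` at the primes
dividing `𝔪`); upper and lower bounds for `∑ rayWt`; the lower bound for the trivial fibre;
orthogonality of characters.
-/

namespace Fermat.Agent.S48.Cheb.H31

open NumberField IsDedekindDomain Filter Topology Ideal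
open Fermat.Agent.Lib.ZetaPrimes Fermat.Agent.Lib.SecondIneq Fermat.Agent.Lib.SecondIneq.H31
open Fermat.Agent.S14.H66
open scoped BigOperators

section Defs

variable (F : Type) [Field F] [NumberField F] (𝔪 : Ideal (𝓞 F)) {A : Type} [CommGroup A]
  (ψ : Ideal (𝓞 F) → A)

open Classical in
/-- The class of a prime (`1` at the primes dividing `𝔪`). -/
noncomputable def rayCls (v : HeightOneSpectrum (𝓞 F)) : A :=
  if IsCoprime v.asIdeal 𝔪 then ψ v.asIdeal else 1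

open Classical in
/-- The weight `N v ^ (-s)` of a prime (`0` at the primes dividing `𝔪`). -/
noncomputable def rayWt (s : ℝ) (v : HeightOneSpectrum (𝓞 F)) : ℝ :=
  if IsCoprime v.asIdeal 𝔪 then primeTerm F s v else 0

lemma rayWt_nonneg (s : ℝ) (v : HeightOneSpectrum (𝓞 F)) : 0 ≤ rayWt F 𝔪 s v := by
  unfold rayWt
  split_ifs
  · exact primeTerm_nonneg' F s v
  · exact le_rfl

lemma rayWt_le (s : ℝ) (v : HeightOneSpectrum (𝓞 F)) : rayWt F 𝔪 s v ≤ primeTerm F s v := by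
  unfold rayWt
  split_ifs
  · exact le_rfl
  · exact primeTerm_nonneg' F s v

lemma summable_rayWt {s : ℝ} (hs : 1 < s) : Summable (rayWt F 𝔪 s) :=
  Summable.of_nonneg_of_le (rayWt_nonneg F 𝔪 s) (rayWt_le F 𝔪 s) (summable_primeTerm F s hs)

variable {F 𝔪 ψ}

lemma char_mul_rayWt (hψ : IsRayMap 𝔪 ψ) (χ : A →* ℂˣ) (s : ℝ) (v : HeightOneSpectrum (𝓞 F)) :
    ((χ (rayCls F 𝔪 ψ v) : ℂˣ) : ℂ) * ((rayWt F 𝔪 s v : ℝ) : ℂ) =
      fPrimeTerm (rayChar hψ χ) s v := by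
  classical
  rw [fPrimeTerm, rayChar_apply]
  by_cases hv : IsCoprime v.asIdeal 𝔪
  · simp [rayCls, rayWt, hv, v.ne_bot]
  · simp [rayCls, rayWt, hv]

lemma primeSumF_rayChar (hψ : IsRayMap 𝔪 ψ) (χ : A →* ℂˣ) (s : ℝ) :
    primeSumF (rayChar hψ χ) s =
      ∑' v, ((χ (rayCls F 𝔪 ψ v) : ℂˣ) : ℂ) * ((rayWt F 𝔪 s v : ℝ) : ℂ) := by
  rw [primeSumF]
  congr 1
  funext v
  exact (char_mul_rayWt hψ χ s v).symm

lemma primeSumF_rayChar_one (hψ : IsRayMap 𝔪 ψ) (s : ℝ) :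
    primeSumF (rayChar hψ (1 : A →* ℂˣ)) s = ((∑' v, rayWt F 𝔪 s v : ℝ) : ℂ) := by
  rw [primeSumF_rayChar, Complex.ofReal_tsum]
  congr 1
  funext v
  simp

end Defs

section Bounds

variable (F : Type) [Field F] [NumberField F] (𝔪 : Ideal (𝓞 F))

/-- `∑_{v ∤ 𝔪} N v^{-s} ≤ log (1/(s-1)) + C` near `1⁺`. -/
lemma exists_tsum_rayWt_le :
    ∃ C : ℝ, ∀ᶠ s in 𝓝[>] (1 : ℝ), ∑' v, rayWt F 𝔪 s v ≤ Real.log (1 / (s - 1)) + C := by
  obtain ⟨C, hC⟩ := primeSum_le F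
  refine ⟨C, ?_⟩
  filter_upwards [hC, self_mem_nhdsWithin] with s hs hs1
  exact ((summable_rayWt F 𝔪 hs1).tsum_le_tsum (rayWt_le F 𝔪 s)
    (summable_primeTerm F s hs1)).trans hs

/-- The primes dividing `𝔪`: a finite set. -/
lemma finite_not_isCoprime {𝔪 : Ideal (𝓞 F)} (h𝔪 : 𝔪 ≠ ⊥) :
    {v : HeightOneSpectrum (𝓞 F) | ¬ IsCoprime v.asIdeal 𝔪}.Finite := by
  refine (Ideal.finite_factors h𝔪).subset fun v hv => ?_
  rw [Set.mem_ofPred_eq] at hv ⊢
  rw [Ideal.dvd_iff_le]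
  by_contra hle
  apply hv
  rw [Ideal.isCoprime_iff_sup_eq]
  by_contra htop
  have h := v.isMaximal.eq_of_le htop le_sup_left
  apply hle
  rw [h]
  exact le_sup_right

set_option linter.deprecated false in
/-- `∑_{v ∤ 𝔪} N v^{-s} ≥ log (1/(s-1)) - C` on `(1, 2]`. -/
lemma exists_tsum_rayWt_ge {𝔪 : Ideal (𝓞 F)} (h𝔪 : 𝔪 ≠ ⊥) :
    ∃ C : ℝ, ∀ s : ℝ, 1 < s → s ≤ 2 → Real.log (1 / (s - 1)) - C ≤ ∑' v, rayWt F 𝔪 s v := by
  classical
  obtain ⟨C, hC⟩ := primeSum_ge F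
  obtain ⟨u, hu1, hu⟩ := mem_nhdsGT_iff_exists_Ioo_subset.mp hC
  have hu1' : (1 : ℝ) < u := hu1
  set B : Set (HeightOneSpectrum (𝓞 F)) := {v | ¬ IsCoprime v.asIdeal 𝔪} with hB
  have hBfin : B.Finite := finite_not_isCoprime F h𝔪
  refine ⟨max (C + B.ncard) (Real.log (1 / (u - 1))), fun s hs1 hs2 => ?_⟩
  have hSF := summable_primeTerm F s hs1
  have hSW := summable_rayWt F 𝔪 hs1
  by_cases hsu : s < u
  · have h1 : Real.log (1 / (s - 1)) - C ≤ ∑' v, primeTerm F s v := hu ⟨hs1, hsu⟩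
    have hBle : ∑' v : B, primeTerm F s v ≤ B.ncard :=
      NumberField.Set.primeIdealZetaSum_le_card_of_finite hBfin (by linarith)
    have h2 : ∑' v, primeTerm F s v ≤ ∑' v, rayWt F 𝔪 s v + ∑' v : B, primeTerm F s v := by
      rw [tsum_subtype B (primeTerm F s), ← hSW.tsum_add (hSF.indicator B)]
      refine hSF.tsum_le_tsum (fun v => ?_) (hSW.add (hSF.indicator B))
      by_cases hv : IsCoprime v.asIdeal 𝔪
      · have hvB : v ∉ B := fun h => h hv
        rw [Set.indicator_of_notMem hvB, add_zero, rayWt, if_pos hv]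
      · have hvB : v ∈ B := hv
        rw [Set.indicator_of_mem hvB, rayWt, if_neg hv, zero_add]
    have := le_max_left (C + B.ncard) (Real.log (1 / (u - 1)))
    linarith
  · have hsu' : u ≤ s := not_lt.mp hsu
    have h1 : Real.log (1 / (s - 1)) ≤ Real.log (1 / (u - 1)) := by
      have hs0 : 0 < s - 1 := by linarith
      refine Real.log_le_log (one_div_pos.mpr hs0) ?_
      have hu0 : 0 < u - 1 := by linarith
      exact one_div_le_one_div_of_le hu0 (by linarith)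
    have h2 : 0 ≤ ∑' v, rayWt F 𝔪 s v := tsum_nonneg (rayWt_nonneg F 𝔪 s)
    have := le_max_right (C + B.ncard) (Real.log (1 / (u - 1)))
    linarith

end Bounds

end Fermat.Agent.S48.Cheb.H31
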