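import Fermat.Agent.S48.Cheb.Defs
import Fermat.Agent.Lib.FrobDensity.Main
import Fermat.Agent.Lib.FrobDensity.H31_Rel

/-!
# S48 leaf D4: from Chebotarev for number fields to `Γℚ` (helper43)

`L ⊆ ℚ̄` finite Galois over `ℚ`, `r : Γℚ →* G` trivial on `Gal(ℚ̄/L)`.

* `rbar L r hL : Gal(L/ℚ) →* G` with `rbar (σ|L) = r σ`;
* `mem_frobPrimes`: an unramified prime `w` of `L` with Frobenius `τ`, `rbar τ = g`, gives
  `p_w ∈ frobPrimes r g`;
* `exists_frobEq_conj`: conjugating the prime.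
-/

set_option autoImplicit false
set_option linter.unusedSectionVars false
set_option linter.style.haveILetI false

namespace Fermat.Agent.S48.Cheb.H43

open NumberField IsDedekindDomain Ideal
open Fermat.Agent.Lib Fermat.Agent.Lib.FrobDensity Fermat.Agent.Lib.ZetaPrimes
open scoped Pointwise

local notation "Γℚ" => (AlgebraicClosure ℚ ≃ₐ[ℚ] AlgebraicClosure ℚ)

attribute [local instance] Fermat.Agent.Lib.FrobIntegers.qbar_isAlgebraic
  Fermat.Agent.Lib.FrobIntegers.qbar_isAlgClosure Fermat.Agent.Lib.FrobIntegers.qbar_isGalois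

section

variable (L : IntermediateField ℚ (AlgebraicClosure ℚ)) [NumberField L] [IsGalois ℚ L]
variable {G : Type} [Group G] (r : Γℚ →* G)

/-- The restriction `Γℚ → Gal(L/ℚ)` is onto. -/
lemma restrict_surjective : Function.Surjective (AlgEquiv.restrictNormalHom (F := ℚ)
    (K₁ := AlgebraicClosure ℚ) L) :=
  AlgEquiv.restrictNormalHom_surjective (AlgebraicClosure ℚ)

variable {L r} in
lemma ker_restrict_le (hL : ∀ σ : Γℚ, (∀ x ∈ L, σ x = x) → r σ = 1) :
    (AlgEquiv.restrictNormalHom (F := ℚ) (K₁ := AlgebraicClosure ℚ) L).ker ≤ r.ker := by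
  intro σ hσ
  rw [MonoidHom.mem_ker] at hσ ⊢
  apply hL
  intro x hx
  have h1 := AlgEquiv.restrictNormal_commutes σ L ⟨x, hx⟩
  have h2 : σ.restrictNormal L = 1 := hσ
  rw [h2] at h1
  exact h1.symm

/-- The factorisation of `r` through `Gal(L/ℚ)`. -/
noncomputable def rbar (hL : ∀ σ : Γℚ, (∀ x ∈ L, σ x = x) → r σ = 1) : (L ≃ₐ[ℚ] L) →* G :=
  (AlgEquiv.restrictNormalHom (F := ℚ) (K₁ := AlgebraicClosure ℚ) L).liftOfSurjective
    (restrict_surjective L) ⟨r, ker_restrict_le hL⟩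

lemma rbar_apply (hL : ∀ σ : Γℚ, (∀ x ∈ L, σ x = x) → r σ = 1) (σ : Γℚ) :
    rbar L r hL (AlgEquiv.restrictNormalHom L σ) = r σ :=
  MonoidHom.liftOfRightInverse_comp_apply _ _ _ _ σ

lemma rbar_surjective (hL : ∀ σ : Γℚ, (∀ x ∈ L, σ x = x) → r σ = 1)
    (hr : Function.Surjective r) : Function.Surjective (rbar L r hL) := by
  intro g
  obtain ⟨σ, rfl⟩ := hr g
  exact ⟨_, rbar_apply L r hL σ⟩

/-- An unramified prime `w` of `L` with Frobenius `τ`, `rbar τ = g`, gives a prime in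
`frobPrimes r g`. -/
theorem mem_frobPrimes (hL : ∀ σ : Γℚ, (∀ x ∈ L, σ x = x) → r σ = 1)
    (w : HeightOneSpectrum (𝓞 L)) (hw : Unram L w) {τ : L ≃ₐ[ℚ] L}
    (hτ : IsArithFrobAt ℤ τ w.asIdeal) {g : G} (hg : rbar L r hL τ = g) :
    ratPrime L w ∈ Fermat.Agent.S48.frobPrimes r g := by
  haveI := w.isPrime
  have hp := ratPrime_prime L w
  have hmem := ratPrime_mem L w
  obtain ⟨B, hB⟩ := H97.exists_valuationSubring_center L w.asIdeal w.ne_bot
  have hBℓ : B.LiesOverPrime (ratPrime L w) := by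
    show ((ratPrime L w : ℕ) : AlgebraicClosure ℚ) ∈ B.nonunits
    rw [B.mem_nonunits_iff]
    have := (hB _).mp hmem
    rwa [map_natCast] at this
  obtain ⟨σ, hσ⟩ := Fermat.Agent.Lib.FrobExists.exists_isFrobeniusAt _ hp B hBℓ
  have hσ' := H97.isArithFrobAt_restrict L w.asIdeal _ hp hmem B hB σ hσ
  have heq : AlgEquiv.restrictNormalHom L σ = τ := by
    have h1 := IsArithFrobAt.mul_inv_mem_inertia hσ' hτ
    have hin : w.asIdeal.inertia (L ≃ₐ[ℚ] L) = ⊥ := hw
    rw [hin, Subgroup.mem_bot] at h1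
    exact mul_inv_eq_one.mp h1
  refine ⟨hp, B, σ, hBℓ, hσ, ?_⟩
  rw [← rbar_apply L r hL σ, heq, hg]

end

end Fermat.Agent.S48.Cheb.H43
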