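import Fermat.Agent.S48.Cheb.H43_Bridge

/-!
# S48 leaf D4, counting lemmas (helper43)

* `card_preimage_mul`: fibres of a surjective homomorphism of finite groups have equal size;
* `under_int_eq_span`: the prime of `ℤ` below `w` is `(p_w)`;
* `sum_decompCard_le`: `∑ |D_w| ≤ |Gal(L/ℚ)|` over distinct primes above one rational prime;
* `sum_wt_le`: `∑_{w ∈ W} |D_w| p_w^{-s} ≤ |Gal(L/ℚ)| ∑_{p ∈ image} p^{-s}`;
* `exists_conj_frob`: conjugating an unramified prime and its Frobenius.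
-/

set_option autoImplicit false
set_option linter.unusedSectionVars false
set_option linter.style.haveILetI false

namespace Fermat.Agent.S48.Cheb.H43

open NumberField IsDedekindDomain Ideal
open Fermat.Agent.Lib Fermat.Agent.Lib.FrobDensity Fermat.Agent.Lib.ZetaPrimes
open scoped Pointwise

section Group

variable {H G : Type} [Group H] [Group G]

/-- The preimage of a subset under a surjective homomorphism is a product with the kernel. -/
noncomputable def fibreEquivKer (ρ : H →* G) (hρ : Function.Surjective ρ) (Q : G → Prop) :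
    {τ : H // Q (ρ τ)} ≃ {h : G // Q h} × ρ.ker where
  toFun τ := (⟨ρ τ.1, τ.2⟩, ⟨(Function.surjInv hρ (ρ τ.1))⁻¹ * τ.1, by
    rw [MonoidHom.mem_ker, map_mul, map_inv, Function.surjInv_eq hρ, inv_mul_cancel]⟩)
  invFun x := ⟨Function.surjInv hρ x.1.1 * x.2.1, by
    have h2 : ρ x.2.1 = 1 := x.2.2
    rw [map_mul, Function.surjInv_eq hρ, h2, mul_one]
    exact x.1.2⟩
  left_inv τ := by
    apply Subtype.ext
    simp
  right_inv x := by
    have h2 : ρ x.2.1 = 1 := x.2.2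
    have h3 : ρ (Function.surjInv hρ x.1.1 * x.2.1) = x.1.1 := by
      rw [map_mul, Function.surjInv_eq hρ, h2, mul_one]
    apply Prod.ext
    · apply Subtype.ext
      exact h3
    · apply Subtype.ext
      show (Function.surjInv hρ (ρ (Function.surjInv hρ x.1.1 * x.2.1)))⁻¹ *
        (Function.surjInv hρ x.1.1 * x.2.1) = x.2.1
      rw [h3, inv_mul_cancel_left]

lemma card_preimage_mul [Finite H] [Finite G] (ρ : H →* G) (hρ : Function.Surjective ρ)
    (Q : G → Prop) :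
    Nat.card {τ : H // Q (ρ τ)} * Nat.card G = Nat.card {h : G // Q h} * Nat.card H := by
  have h1 : Nat.card {τ : H // Q (ρ τ)} = Nat.card {h : G // Q h} * Nat.card ρ.ker := by
    rw [Nat.card_congr (fibreEquivKer ρ hρ Q), Nat.card_prod]
  have h2 : Nat.card {τ : H // True} = Nat.card {h : G // True} * Nat.card ρ.ker := by
    rw [Nat.card_congr (fibreEquivKer ρ hρ (fun _ => True)), Nat.card_prod]
  rw [Nat.card_congr (Equiv.subtypeUnivEquiv (fun _ => trivial)),
    Nat.card_congr (Equiv.subtypeUnivEquiv (fun _ => trivial))] at h2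
  rw [h1, h2]
  ring

end Group

section Fibre

variable (L : Type) [Field L] [NumberField L] [IsGalois ℚ L]

omit [IsGalois ℚ L] in
/-- The prime of `ℤ` below `w`. -/
lemma under_int_eq_span (w : HeightOneSpectrum (𝓞 L)) :
    w.asIdeal.under ℤ = Ideal.span {((ratPrime L w : ℕ) : ℤ)} := by
  haveI := w.isPrime
  have hp := ratPrime_prime L w
  have h1 : Ideal.span {((ratPrime L w : ℕ) : ℤ)} ≤ w.asIdeal.under ℤ := by
    rw [Ideal.span_singleton_le_iff_mem, Ideal.under, Ideal.mem_comap]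
    simpa using ratPrime_mem L w
  have hmax : (Ideal.span {((ratPrime L w : ℕ) : ℤ)}).IsMaximal :=
    PrincipalIdealRing.isMaximal_of_irreducible
      (Nat.prime_iff_prime_int.mp hp).irreducible
  have hne : w.asIdeal.under ℤ ≠ ⊤ := (inferInstance : (w.asIdeal.under ℤ).IsPrime).ne_top
  exact (hmax.eq_of_le hne h1).symm

/-- Two primes above the same rational prime are conjugate. -/
lemma exists_smul_eq_of_ratPrime_eq {w w' : HeightOneSpectrum (𝓞 L)}
    (h : ratPrime L w' = ratPrime L w) : ∃ σ : L ≃ₐ[ℚ] L, w'.asIdeal = σ • w.asIdeal := by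
  have hG : IsGaloisGroup (L ≃ₐ[ℚ] L) ℤ (𝓞 L) := IsGaloisGroup.of_isFractionRing _ _ _ ℚ L
  haveI := w.isPrime
  haveI := w'.isPrime
  refine Algebra.IsInvariant.exists_smul_of_under_eq ℤ (𝓞 L) (L ≃ₐ[ℚ] L) w.asIdeal w'.asIdeal ?_
  rw [under_int_eq_span, under_int_eq_span, h]

omit [IsGalois ℚ L] in
lemma decompCard_eq_of_smul {w w' : HeightOneSpectrum (𝓞 L)} {σ : L ≃ₐ[ℚ] L}
    (h : w'.asIdeal = σ • w.asIdeal) : decompCard L w' = decompCard L w := by
  unfold decompCard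
  exact (Nat.card_congr (MulAction.stabilizerEquivStabilizer h).toEquiv).symm

/-- `∑ |D_w| ≤ |Gal(L/ℚ)|` over distinct primes above one rational prime. -/
lemma sum_decompCard_le (W : Finset (HeightOneSpectrum (𝓞 L))) (p : ℕ)
    (hW : ∀ w ∈ W, ratPrime L w = p) :
    ∑ w ∈ W, decompCard L w ≤ Nat.card (L ≃ₐ[ℚ] L) := by
  classical
  rcases W.eq_empty_or_nonempty with rfl | ⟨w₀, hw₀⟩
  · simp
  have horb : ∀ w ∈ W, w.asIdeal ∈ MulAction.orbit (L ≃ₐ[ℚ] L) w₀.asIdeal := by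
    intro w hw
    obtain ⟨σ, hσ⟩ := exists_smul_eq_of_ratPrime_eq L (w := w₀) (w' := w)
      ((hW w hw).trans (hW w₀ hw₀).symm)
    exact ⟨σ, hσ.symm⟩
  have hdc : ∀ w ∈ W, decompCard L w = decompCard L w₀ := by
    intro w hw
    obtain ⟨σ, hσ⟩ := exists_smul_eq_of_ratPrime_eq L (w := w₀) (w' := w)
      ((hW w hw).trans (hW w₀ hw₀).symm)
    exact decompCard_eq_of_smul L hσ
  rw [Finset.sum_congr rfl hdc, Finset.sum_const, smul_eq_mul]
  have hcard : W.card ≤ Nat.card (MulAction.orbit (L ≃ₐ[ℚ] L) w₀.asIdeal) := by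
    have hfin : Finite (MulAction.orbit (L ≃ₐ[ℚ] L) w₀.asIdeal) := Set.finite_range _
    let f : W → MulAction.orbit (L ≃ₐ[ℚ] L) w₀.asIdeal := fun w => ⟨w.1.asIdeal, horb w.1 w.2⟩
    have hf : Function.Injective f := by
      intro a b hab
      have h1 : a.1.asIdeal = b.1.asIdeal := congrArg Subtype.val hab
      exact Subtype.ext (HeightOneSpectrum.ext h1)
    have := Nat.card_le_card_of_injective f hf
    rwa [Nat.card_eq_fintype_card, Fintype.card_coe] at this
  have hos := Nat.card_congr (MulAction.orbitProdStabilizerEquivGroup (L ≃ₐ[ℚ] L) w₀.asIdeal)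
  rw [Nat.card_prod] at hos
  rw [← hos]
  exact Nat.mul_le_mul_right _ hcard

/-- `∑_{w ∈ W} |D_w| p_w^{-s} ≤ |Gal(L/ℚ)| ∑_{p ∈ image} p^{-s}`. -/
lemma sum_wt_le (W : Finset (HeightOneSpectrum (𝓞 L))) (s : ℝ) :
    ∑ w ∈ W, FrobDensity.wt L s w ≤
      (Nat.card (L ≃ₐ[ℚ] L) : ℝ) * ∑ p ∈ W.image (ratPrime L), (p : ℝ) ^ (-s) := by
  classical
  rw [← Finset.sum_fiberwise_of_maps_to (g := ratPrime L) (t := W.image (ratPrime L))
    (fun w hw => Finset.mem_image_of_mem _ hw), Finset.mul_sum]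
  refine Finset.sum_le_sum (fun p _ => ?_)
  have h1 : ∑ w ∈ W with ratPrime L w = p, FrobDensity.wt L s w =
      ((∑ w ∈ W with ratPrime L w = p, decompCard L w : ℕ) : ℝ) * (p : ℝ) ^ (-s) := by
    rw [Nat.cast_sum, Finset.sum_mul]
    refine Finset.sum_congr rfl (fun w hw => ?_)
    rw [Finset.mem_filter] at hw
    unfold FrobDensity.wt
    rw [hw.2]
  rw [h1]
  refine mul_le_mul_of_nonneg_right ?_ (by positivity)
  exact_mod_cast sum_decompCard_le L _ p (fun w hw => (Finset.mem_filter.mp hw).2)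

/-- Conjugating an unramified prime and its Frobenius. -/
lemma exists_conj_frob (w : HeightOneSpectrum (𝓞 L)) (hw : Unram L w) {τ : L ≃ₐ[ℚ] L}
    (hτ : IsArithFrobAt ℤ τ w.asIdeal) (ξ : L ≃ₐ[ℚ] L) :
    ∃ w' : HeightOneSpectrum (𝓞 L), Unram L w' ∧ IsArithFrobAt ℤ (ξ * τ * ξ⁻¹) w'.asIdeal ∧
      ratPrime L w' = ratPrime L w := by
  haveI := w.isPrime
  have hprime : (ξ • w.asIdeal).IsPrime := inferInstance
  have hne : ξ • w.asIdeal ≠ ⊥ := by
    intro h
    apply w.ne_bot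
    have h2 : ξ⁻¹ • (ξ • w.asIdeal) = ξ⁻¹ • (⊥ : Ideal (𝓞 L)) := by rw [h]
    rw [inv_smul_smul] at h2
    rw [h2]
    exact Ideal.smul_bot _
  let w' : HeightOneSpectrum (𝓞 L) := ⟨ξ • w.asIdeal, hprime, hne⟩
  have hmem : ((ratPrime L w : ℕ) : 𝓞 L) ∈ w'.asIdeal := by
    show ((ratPrime L w : ℕ) : 𝓞 L) ∈ ξ • w.asIdeal
    rw [Ideal.mem_pointwise_smul_iff_inv_smul_mem]
    have : ξ⁻¹ • ((ratPrime L w : ℕ) : 𝓞 L) = ((ratPrime L w : ℕ) : 𝓞 L) :=
      map_natCast (MulSemiringAction.toRingHom (L ≃ₐ[ℚ] L) (𝓞 L) ξ⁻¹) _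
    rw [this]
    exact ratPrime_mem L w
  have hrat : ratPrime L w' = ratPrime L w :=
    (H12.eq_ratPrime_of_mem L w' (ratPrime_prime L w) hmem).symm
  refine ⟨w', ?_, hτ.conj ξ, hrat⟩
  refine H31.unram_of_under_eq L (w := w) (w' := w') ?_ hw
  rw [under_int_eq_span, under_int_eq_span, hrat]

end Fibre

end Fermat.Agent.S48.Cheb.H43
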