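import Fermat.Agent.S48.Cheb.H43_RayMap

/-!
# S48 leaf D2: the cyclotomic case of Chebotarev, from `Stmt_RayDensity` (helper43)

`chebCyc_of : Stmt_RayDensity → Stmt_ChebCyc`.
-/

set_option autoImplicit false
set_option linter.unusedSectionVars false
set_option linter.style.haveILetI false

namespace Fermat.Agent.S48.Cheb.H43

open NumberField IsDedekindDomain Ideal
open Fermat.Agent.Lib Fermat.Agent.Lib.FrobDensity Fermat.Agent.Lib.ZetaPrimes
open scoped IsMulCommutative

variable {N : Type} [Field N] [NumberField N] [IsGalois ℚ N] {m : ℕ} {ζ : N} {a : N ≃ₐ[ℚ] N}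

variable (N) in
/-- The rational primes with a ramified prime above them form a finite set. -/
lemma exists_ramPrimes :
    ∃ R : Finset ℕ, ∀ w : HeightOneSpectrum (𝓞 N), ¬ Unram N w → ratPrime N w ∈ R := by
  classical
  have hfin : {w : HeightOneSpectrum (𝓞 N) | ¬ Unram N w}.Finite := H31.stmt_RamFinite N
  refine ⟨(hfin.image (ratPrime N)).toFinset, fun w hw => ?_⟩
  rw [Set.Finite.mem_toFinset]
  exact ⟨w, hw, rfl⟩

/-- A prime of degree one: its norm is the rational prime below it and the identity is a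
Frobenius element. -/
lemma isArithFrobAt_one_of_prime_norm (w : HeightOneSpectrum (𝓞 N))
    (hp : (absNorm w.asIdeal).Prime) :
    absNorm w.asIdeal = ratPrime N w ∧ IsArithFrobAt ℤ (1 : N ≃ₐ[ℚ] N) w.asIdeal := by
  classical
  have hnorm : absNorm w.asIdeal = ratPrime N w := by
    obtain ⟨f, hf1, hf⟩ := exists_absNorm_eq_pow N w
    have hdvd : ratPrime N w ∣ absNorm w.asIdeal := by
      rw [hf]; exact dvd_pow_self _ (by omega)
    rcases (Nat.dvd_prime hp).mp hdvd with h1 | h1
    · exact absurd h1 (ratPrime_prime N w).one_lt.ne'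
    · exact h1.symm
  refine ⟨hnorm, (H12.isArithFrobAt_int_iff N w 1).mpr fun y => ?_⟩
  rw [one_smul, ← hnorm]
  haveI := w.isPrime
  have hmax : w.asIdeal.IsMaximal := w.isMaximal
  letI := Ideal.Quotient.field w.asIdeal
  haveI : Finite (𝓞 N ⧸ w.asIdeal) := Ideal.finiteQuotientOfFreeOfNeBot _ w.ne_bot
  letI := Fintype.ofFinite (𝓞 N ⧸ w.asIdeal)
  have hcard : Fintype.card (𝓞 N ⧸ w.asIdeal) = absNorm w.asIdeal := by
    rw [Ideal.absNorm_apply, Submodule.cardQuot_apply, Nat.card_eq_fintype_card]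
  have h1 := FiniteField.pow_card (Ideal.Quotient.mk w.asIdeal y)
  rw [hcard, ← map_pow] at h1
  rw [← Ideal.Quotient.eq]
  exact h1.symm

/-- The splitting hypothesis of D1: the prime of `E` under a prime of `N` of degree one (over an
unramified rational prime not dividing `m`) has trivial norm residue symbol. -/
lemma rayNorm_under_of_prime_norm (hm : m ≠ 0) (hζ : IsPrimitiveRoot ζ m)
    (hinj : ∀ k : ℕ, (a ^ k) ζ = ζ → a ^ k = 1) (R : Finset ℕ)
    (hR : ∀ w : HeightOneSpectrum (𝓞 N), ¬ Unram N w → ratPrime N w ∈ R)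
    (Q : Ideal (𝓞 N)) (hQ : Q.IsPrime) (hp : (absNorm Q).Prime) (hT : absNorm Q ∉ R)
    (hc : IsCoprime (Q.under (𝓞 (fixE a))) (modE a m)) :
    rayNorm a ζ (Q.under (𝓞 (fixE a))) = 1 := by
  have hQ0 : Q ≠ ⊥ := by
    rintro rfl
    rw [Ideal.absNorm_bot] at hp
    exact Nat.not_prime_zero hp
  let w : HeightOneSpectrum (𝓞 N) := ⟨Q, hQ, hQ0⟩
  obtain ⟨hnorm, hfrob⟩ := isArithFrobAt_one_of_prime_norm w hp
  have hw : Unram N w := by
    by_contra h
    exact hT (hnorm ▸ hR w h)
  have hmw : (m : 𝓞 N) ∉ w.asIdeal := by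
    intro h
    have hup : (Q.under (𝓞 (fixE a))).IsPrime := Ideal.IsPrime.under (𝓞 (fixE a)) Q
    apply natCast_notMem_of_isCoprime hup hc
    rw [Ideal.under_def, Ideal.mem_comap, map_natCast]
    exact h
  exact (rayNorm_underK hm hζ hinj w hw hmw hfrob (one_mem _)).2

/-- **D2**: the cyclotomic case of Chebotarev, from D1. -/
theorem chebCyc_of (hD1 : Stmt_RayDensity) : Stmt_ChebCyc := by
  classical
  intro N _ _ _ m ζ a hm hζ hinj hneg
  obtain ⟨R, hR⟩ := exists_ramPrimes N
  have hray := isRayMap_rayNorm hm hζ hinj hneg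
  have hfin : Module.finrank (fixE a) N ≤ Nat.card (Subgroup.zpowers a) :=
    le_of_eq (IntermediateField.finrank_fixedField_eq_card (Subgroup.zpowers a))
  obtain ⟨C₁, hC₁⟩ := hD1 (fixE a) N (modE a m) (Subgroup.zpowers a) (rayNorm a ζ) R
    (modE_ne_bot hm) hray
    (fun Q hQ hp hT hc => rayNorm_under_of_prime_norm hm hζ hinj R hR Q hQ hp hT hc) hfin
    ⟨a, Subgroup.mem_zpowers a⟩
  have hBad : (badSet N (fixE a)).Finite := H31.badSet_finite N (fixE a)
  have hHpos : (0 : ℝ) < (Nat.card (Subgroup.zpowers a) : ℝ) := by exact_mod_cast Nat.card_pos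
  refine ⟨(Nat.card (Subgroup.zpowers a) : ℝ) * (C₁ + hBad.toFinset.card), fun s hs1 hs2 => ?_⟩
  have hD := hC₁ s hs1 hs2
  set x : ↥(Subgroup.zpowers a) := ⟨a, Subgroup.mem_zpowers a⟩ with hx
  set PV : HeightOneSpectrum (𝓞 (fixE a)) → Prop := fun v =>
    IsCoprime v.asIdeal (modE a m) ∧ rayNorm a ζ v.asIdeal = x ∧ (absNorm v.asIdeal).Prime
    with hPV
  have hsumE : Summable (primeTerm (fixE a) s) := summable_primeTerm (fixE a) s hs1
  -- (i) removing the bad primes costs at most `#bad`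
  have h_i : ∑' v : {v // PV v}, primeTerm (fixE a) s v.1 ≤
      ∑' v : {v // PV v ∧ v ∉ badSet N (fixE a)}, primeTerm (fixE a) s v.1 +
        hBad.toFinset.card := by
    have e1 : ∑' v : {v // PV v}, primeTerm (fixE a) s v.1 =
        ∑' v, ({v | PV v} : Set _).indicator (primeTerm (fixE a) s) v :=
      tsum_subtype {v | PV v} (primeTerm (fixE a) s)
    have e2 : ∑' v : {v // PV v ∧ v ∉ badSet N (fixE a)}, primeTerm (fixE a) s v.1 =
        ∑' v, ({v | PV v ∧ v ∉ badSet N (fixE a)} : Set _).indicator (primeTerm (fixE a) s) v :=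
      tsum_subtype {v | PV v ∧ v ∉ badSet N (fixE a)} (primeTerm (fixE a) s)
    have e3 : ∑' v, ((hBad.toFinset : Set (HeightOneSpectrum (𝓞 (fixE a)))).indicator
        (fun _ => (1 : ℝ))) v = hBad.toFinset.card := by
      rw [← tsum_subtype, tsum_fintype]
      simp
    have hs3 : Summable ((hBad.toFinset : Set (HeightOneSpectrum (𝓞 (fixE a)))).indicator
        (fun _ => (1 : ℝ))) := by
      refine summable_of_ne_finset_zero (s := hBad.toFinset) fun v hv => ?_
      exact Set.indicator_of_notMem (by simpa using hv) _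
    rw [e1, e2, ← e3, ← (hsumE.indicator _).tsum_add hs3]
    refine (hsumE.indicator _).tsum_le_tsum (fun v => ?_) ((hsumE.indicator _).add hs3)
    by_cases hv : PV v
    · by_cases hb : v ∈ badSet N (fixE a)
      · rw [Set.indicator_of_mem (show v ∈ {v | PV v} from hv),
          Set.indicator_of_notMem (show v ∉ {v | PV v ∧ v ∉ badSet N (fixE a)} from
            fun h => h.2 hb),
          Set.indicator_of_mem (show v ∈ (hBad.toFinset : Set _) by simpa using hb), zero_add]
        exact H31.primeTerm_le_one' (fixE a) hs1 v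
      · rw [Set.indicator_of_mem (show v ∈ {v | PV v} from hv),
          Set.indicator_of_mem (show v ∈ {v | PV v ∧ v ∉ badSet N (fixE a)} from ⟨hv, hb⟩),
          Set.indicator_of_notMem (show v ∉ (hBad.toFinset : Set _) by simpa using hb),
          add_zero]
    · rw [Set.indicator_of_notMem (show v ∉ {v | PV v} from hv),
        Set.indicator_of_notMem (show v ∉ {v | PV v ∧ v ∉ badSet N (fixE a)} from
          fun h => hv h.1)]
      exact add_nonneg le_rfl (Set.indicator_nonneg (fun _ _ => zero_le_one) v)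
  -- (ii) the fibres of `w ↦ w ∩ E`
  have h_ii : (Nat.card (Subgroup.zpowers a) : ℝ) *
      ∑' v : {v // PV v ∧ v ∉ badSet N (fixE a)}, primeTerm (fixE a) s v.1 ≤
        ∑' w : frobEq N a, FrobDensity.wt N s w.1 := by
    set PW : HeightOneSpectrum (𝓞 N) → Prop := fun w =>
      w ∈ frobEq N a ∧ (m : 𝓞 N) ∉ w.asIdeal with hPW
    have hπ : ∀ w : {w // PW w}, PV (underK N (fixE a) w.1) ∧
        underK N (fixE a) w.1 ∉ badSet N (fixE a) := by
      rintro ⟨w, ⟨hwU, hwF⟩, hmw⟩
      obtain ⟨hnorm, hr⟩ := rayNorm_underK hm hζ hinj w hwU hmw hwF (Subgroup.mem_zpowers a)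
      refine ⟨⟨isCoprime_of_natCast_notMem _ (natCast_notMem_underK w hmw), hr, ?_⟩,
        H31.underK_notMem_badSet N (fixE a) w hwU⟩
      rw [hnorm]
      exact ratPrime_prime N w
    let π : {w // PW w} → {v // PV v ∧ v ∉ badSet N (fixE a)} :=
      fun w => ⟨underK N (fixE a) w.1, hπ w⟩
    let c : {w // PW w} → ℝ :=
      fun w => (decompCard N w.1 : ℝ) / (Nat.card (Subgroup.zpowers a) : ℝ)
    let u : {v // PV v ∧ v ∉ badSet N (fixE a)} → ℝ :=
      fun v => (Nat.card (Subgroup.zpowers a) : ℝ) * primeTerm (fixE a) s v.1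
    have hu : Summable u := (hsumE.subtype _).mul_left _
    have hc0 : ∀ w, 0 ≤ c w := fun w => by positivity
    have hu0 : ∀ v, 0 ≤ u v := fun v => by
      have : 0 ≤ primeTerm (fixE a) s v.1 := primeTerm_nonneg (fixE a) s v.1
      positivity
    have hfib : ∀ y, HasSum (fun w : {w // π w = y} ↦ c w) 1 := by
      rintro ⟨v, ⟨hvc, hvr, hvP⟩, hvB⟩
      obtain ⟨F, hFmem, hFsum⟩ := H84.stmt_FibreCard N (Subgroup.zpowers a) v hvP hvB
      have hFW : ∀ w ∈ F, PW w := by
        intro w hw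
        have hwv : underK N (fixE a) w = v := (hFmem w).mp hw
        have hwU : Unram N w := H31.unram_of_underK_notMem_badSet N (fixE a) w (hwv ▸ hvB)
        have hmw : (m : 𝓞 N) ∉ w.asIdeal := by
          intro h
          have h1 : (m : 𝓞 (fixE a)) ∈ (underK N (fixE a) w).asIdeal := by
            change (m : 𝓞 (fixE a)) ∈ w.asIdeal.under (𝓞 (fixE a))
            rw [Ideal.under_def, Ideal.mem_comap, map_natCast]
            exact h
          rw [hwv] at h1
          exact natCast_notMem_of_isCoprime v.isPrime hvc h1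
        have hφ := H31.isArithFrobAt_frobU N ⟨w, hwU⟩
        have hφH : H31.frobU N ⟨w, hwU⟩ ∈ Subgroup.zpowers a := by
          rw [H12.stmt_Split N _ w _ hwU hφ, hwv]
          exact hvP
        obtain ⟨-, hr⟩ := rayNorm_underK hm hζ hinj w hwU hmw hφ hφH
        rw [hwv, hvr] at hr
        have hfa : a = H31.frobU N ⟨w, hwU⟩ := congrArg Subtype.val hr
        exact ⟨⟨hwU, hfa ▸ hφ⟩, hmw⟩
      let e : (F : Set (HeightOneSpectrum (𝓞 N))) ≃
          {w : {w // PW w} // π w = ⟨v, ⟨hvc, hvr, hvP⟩, hvB⟩} :=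
        { toFun := fun w ↦ ⟨⟨w.1, hFW w.1 w.2⟩, Subtype.ext ((hFmem w.1).mp w.2)⟩
          invFun := fun w ↦ ⟨w.1.1, (hFmem w.1.1).mpr (congrArg Subtype.val w.2)⟩
          left_inv := fun _ ↦ rfl
          right_inv := fun _ ↦ rfl }
      have h1 : HasSum (fun w : (F : Set (HeightOneSpectrum (𝓞 N))) ↦
          (decompCard N w.1 : ℝ) / (Nat.card (Subgroup.zpowers a) : ℝ))
          (∑ w ∈ F, (decompCard N w : ℝ) / (Nat.card (Subgroup.zpowers a) : ℝ)) :=
        F.hasSum (fun w ↦ (decompCard N w : ℝ) / (Nat.card (Subgroup.zpowers a) : ℝ))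
      have h2 : ∑ w ∈ F, (decompCard N w : ℝ) / (Nat.card (Subgroup.zpowers a) : ℝ) = 1 := by
        rw [← Finset.sum_div, ← Nat.cast_sum, hFsum]
        exact div_self hHpos.ne'
      rw [h2] at h1
      exact (e.hasSum_iff (f := fun w : {w : {w // PW w} //
        π w = ⟨v, ⟨hvc, hvr, hvP⟩, hvB⟩} ↦ c w.1)).mp h1
    have hmain := H31.tsum_fibres π c u hc0 hu0 hu hfib
    have hterm : ∀ w : {w // PW w}, c w * u (π w) = FrobDensity.wt N s w.1 := by
      rintro ⟨w, ⟨hwU, hwF⟩, hmw⟩
      obtain ⟨hnorm, -⟩ := rayNorm_underK hm hζ hinj w hwU hmw hwF (Subgroup.mem_zpowers a)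
      change (decompCard N w : ℝ) / (Nat.card (Subgroup.zpowers a) : ℝ) *
        ((Nat.card (Subgroup.zpowers a) : ℝ) * primeTerm (fixE a) s (underK N (fixE a) w)) =
          FrobDensity.wt N s w
      unfold FrobDensity.wt primeTerm
      rw [hnorm]
      field_simp
    have hsumW : ∑' w : {w // PW w}, FrobDensity.wt N s w.1 =
        (Nat.card (Subgroup.zpowers a) : ℝ) *
          ∑' v : {v // PV v ∧ v ∉ badSet N (fixE a)}, primeTerm (fixE a) s v.1 := by
      rw [← tsum_mul_left, ← hmain.tsum_eq]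
      exact tsum_congr (fun w ↦ (hterm w).symm)
    rw [← hsumW]
    have hsN : Summable (fun w : HeightOneSpectrum (𝓞 N) ↦ FrobDensity.wt N s w) :=
      H31.summable_wt N hs1
    have hsW : Summable (fun w : {w // PW w} ↦ FrobDensity.wt N s w.1) := hsN.subtype _
    have hsF : Summable (fun w : frobEq N a ↦ FrobDensity.wt N s w.1) := hsN.subtype _
    refine hsW.tsum_le_tsum_of_inj (fun w : {w // PW w} => (⟨w.1, w.2.1⟩ : frobEq N a)) ?_
      (fun w _ => H31.wt_nonneg' N s w.1) (fun _ => le_rfl) hsF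
    intro w₁ w₂ h
    exact Subtype.ext (congrArg (fun w : frobEq N a => w.1) h)
  calc Real.log (1 / (s - 1)) - (Nat.card (Subgroup.zpowers a) : ℝ) * (C₁ + hBad.toFinset.card)
      = (Nat.card (Subgroup.zpowers a) : ℝ) *
          (Real.log (1 / (s - 1)) / (Nat.card (Subgroup.zpowers a) : ℝ) - C₁
            - hBad.toFinset.card) := by
        field_simp
        ring
    _ ≤ (Nat.card (Subgroup.zpowers a) : ℝ) *
          ∑' v : {v // PV v ∧ v ∉ badSet N (fixE a)}, primeTerm (fixE a) s v.1 := by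
        apply mul_le_mul_of_nonneg_left _ hHpos.le
        linarith
    _ ≤ _ := h_ii

end Fermat.Agent.S48.Cheb.H43
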