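import Fermat.Agent.S48.Cheb.H43_RayNorm

/-!
# S48 leaf D2: `rayNorm` is a ray map mod `m` onto `⟨a⟩` (helper43)
-/

set_option autoImplicit false
set_option linter.unusedSectionVars false
set_option linter.style.haveILetI false

namespace Fermat.Agent.S48.Cheb.H43

open NumberField IsDedekindDomain Ideal
open Fermat.Agent.Lib
open scoped IsMulCommutative

variable {N : Type} [Field N] [NumberField N] [IsGalois ℚ N] {m : ℕ} {ζ : N} {a : N ≃ₐ[ℚ] N}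

/-- If `σ ζ = ζ ^ t` then `σ ^ j ζ = ζ ^ (t ^ j)`. -/
lemma pow_apply_eq {σ : N ≃ₐ[ℚ] N} {t : ℕ} (h : σ ζ = ζ ^ t) (j : ℕ) :
    (σ ^ j) ζ = ζ ^ (t ^ j) := by
  induction j with
  | zero => simp
  | succ j ih =>
    rw [pow_succ, AlgEquiv.mul_apply, h, map_pow, ih, ← pow_mul, pow_succ]

theorem rayNorm_map_mul (hm : m ≠ 0) (hζ : IsPrimitiveRoot ζ m)
    (hinj : ∀ k : ℕ, (a ^ k) ζ = ζ → a ^ k = 1) (𝔞 𝔟 : Ideal (𝓞 (fixE a)))
    (h𝔞 : 𝔞 ≠ ⊥) (h𝔟 : 𝔟 ≠ ⊥) (hc𝔞 : IsCoprime 𝔞 (modE a m)) (hc𝔟 : IsCoprime 𝔟 (modE a m)) :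
    rayNorm a ζ (𝔞 * 𝔟) = rayNorm a ζ 𝔞 * rayNorm a ζ 𝔟 := by
  obtain ⟨σ₁, hσ₁, h₁⟩ := exists_sym hm hζ 𝔞 h𝔞 hc𝔞
  obtain ⟨σ₂, hσ₂, h₂⟩ := exists_sym hm hζ 𝔟 h𝔟 hc𝔟
  have h₁₂ : (σ₁ * σ₂) ζ = ζ ^ Ideal.absNorm (𝔞 * 𝔟) := by
    rw [AlgEquiv.mul_apply, h₂, map_pow, h₁, ← pow_mul, map_mul]
  rw [rayNorm_eq hinj hσ₁ h₁, rayNorm_eq hinj hσ₂ h₂,
    rayNorm_eq hinj ((Subgroup.zpowers a).mul_mem hσ₁ hσ₂) h₁₂]
  rfl

theorem rayNorm_map_ray (hm : m ≠ 0) (hζ : IsPrimitiveRoot ζ m)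
    (hinj : ∀ k : ℕ, (a ^ k) ζ = ζ → a ^ k = 1) (hneg : ∀ k : ℕ, (a ^ k) ζ ≠ ζ⁻¹)
    (x : 𝓞 (fixE a)) (hx0 : x ≠ 0) (hx : x - 1 ∈ modE a m) :
    rayNorm a ζ (Ideal.span {x}) = 1 := by
  have hcop : IsCoprime (Ideal.span {x}) (modE a m) := by
    rw [Ideal.isCoprime_iff_exists]
    exact ⟨x, Ideal.mem_span_singleton_self x, -(x - 1), neg_mem hx, by ring⟩
  have hspan0 : Ideal.span {x} ≠ ⊥ := by
    rw [Ne, Ideal.span_singleton_eq_bot]; exact hx0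
  obtain ⟨σ, hσ, h⟩ := exists_sym hm hζ (Ideal.span {x}) hspan0 hcop
  rw [Ideal.absNorm_span_singleton] at h
  have hnorm := norm_intCast_zmod_eq_one (S := 𝓞 (fixE a)) m hx
  set n : ℤ := Algebra.norm ℤ x with hn
  have hn0 : n ≠ 0 := by
    rw [hn, Ne, Algebra.norm_eq_zero_iff]; exact hx0
  rcases lt_or_gt_of_ne hn0 with hlt | hgt
  · -- negative norm: `σ` inverts `ζ`
    exfalso
    have h1 : ((n.natAbs + 1 : ℕ) : ZMod m) = 0 := by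
      have : ((n.natAbs : ℕ) : ℤ) = -n := by omega
      have h2 : ((n.natAbs : ℕ) : ZMod m) = -1 := by
        calc ((n.natAbs : ℕ) : ZMod m) = (((n.natAbs : ℕ) : ℤ) : ZMod m) :=
              (Int.cast_natCast _).symm
          _ = ((-n : ℤ) : ZMod m) := by rw [this]
          _ = -1 := by rw [Int.cast_neg, hnorm]
      rw [Nat.cast_add, h2, Nat.cast_one]; ring
    have h3 : m ∣ n.natAbs + 1 := (ZMod.natCast_eq_zero_iff _ _).mp h1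
    have h4 : ζ ^ n.natAbs * ζ = 1 := by
      rw [← pow_succ]
      exact (hζ.pow_eq_one_iff_dvd _).mpr h3
    have h5 : σ ζ = ζ⁻¹ := by
      rw [h]; exact eq_inv_of_mul_eq_one_left h4
    obtain ⟨k, hk⟩ := exists_pow_of_mem_zpowers hσ
    exact hneg k (by rw [hk]; exact h5)
  · have h1 : ((n.natAbs : ℕ) : ZMod m) = ((1 : ℕ) : ZMod m) := by
      have : ((n.natAbs : ℕ) : ℤ) = n := by omega
      calc ((n.natAbs : ℕ) : ZMod m) = (((n.natAbs : ℕ) : ℤ) : ZMod m) :=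
            (Int.cast_natCast _).symm
        _ = ((n : ℤ) : ZMod m) := by rw [this]
        _ = ((1 : ℕ) : ZMod m) := by rw [hnorm, Nat.cast_one]
    have h3 : n.natAbs ≡ 1 [MOD m] := (ZMod.natCast_eq_natCast_iff _ _ _).mp h1
    have h4 : ζ ^ n.natAbs = ζ ^ 1 := (prim_pow_eq_iff hζ hm _ _).mpr h3
    have h5 : σ ζ = (1 : N ≃ₐ[ℚ] N) ζ := by
      rw [h, h4, pow_one]; rfl
    have h6 : σ = 1 := eq_of_apply_eq hinj hσ (one_mem _) h5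
    subst h6
    have h7 : (1 : N ≃ₐ[ℚ] N) ζ = ζ ^ Ideal.absNorm (Ideal.span {x}) := by
      rw [Ideal.absNorm_span_singleton]; exact h
    rw [rayNorm_eq hinj (one_mem _) h7]
    rfl

/-- A Frobenius element at a prime `w ∌ m` raises `ζ` to the power `p_w`. -/
lemma frob_apply_zeta (hm : m ≠ 0) (hζ : IsPrimitiveRoot ζ m) (w : HeightOneSpectrum (𝓞 N))
    (hmw : (m : 𝓞 N) ∉ w.asIdeal) {φ : N ≃ₐ[ℚ] N} (hφ : IsArithFrobAt ℤ φ w.asIdeal) :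
    φ ζ = ζ ^ ZetaPrimes.ratPrime N w := by
  obtain ⟨j, hj⟩ := exists_apply_eq_pow hm hζ φ
  have hcong := (FrobDensity.H12.isArithFrobAt_int_iff N w φ).mp hφ (zetaInt hm hζ)
  have h2 : φ • zetaInt hm hζ = zetaInt hm hζ ^ j := by
    apply RingOfIntegers.ext
    exact hj
  rw [h2] at hcong
  haveI := w.isPrime
  have h3 := pow_eq_of_sub_mem hm (zetaInt_prim hm hζ) w.asIdeal hmw hcong
  have h4 := congrArg (algebraMap (𝓞 N) N) h3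
  rw [hj]
  simpa [zetaInt] using h4

/-- The prime of `E` under `w` does not contain `m`. -/
lemma natCast_notMem_underK (w : HeightOneSpectrum (𝓞 N)) (hmw : (m : 𝓞 N) ∉ w.asIdeal) :
    (m : 𝓞 (fixE a)) ∉ (FrobDensity.underK N (fixE a) w).asIdeal := by
  intro h
  apply hmw
  change (m : 𝓞 (fixE a)) ∈ w.asIdeal.under (𝓞 (fixE a)) at h
  rw [Ideal.under_def, Ideal.mem_comap, map_natCast] at h
  exact h

/-- A nonzero prime not containing `m` is coprime to `m 𝓞_E`. -/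
lemma isCoprime_of_natCast_notMem (u : HeightOneSpectrum (𝓞 (fixE a)))
    (h : (m : 𝓞 (fixE a)) ∉ u.asIdeal) : IsCoprime u.asIdeal (modE a m) := by
  rw [Ideal.isCoprime_iff_sup_eq]
  have hmax : u.asIdeal.IsMaximal := u.isMaximal
  by_contra hne
  have hle : u.asIdeal ⊔ modE a m = u.asIdeal := by
    rcases hmax.eq_of_le hne le_sup_left with h1
    exact h1.symm
  apply h
  have : modE a m ≤ u.asIdeal := by
    rw [← hle]; exact le_sup_right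
  exact this (Ideal.mem_span_singleton_self _)

/-- **Key lemma**: for an unramified prime `w ∌ m` of `N` with Frobenius `φ ∈ ⟨a⟩`, the prime `u`
of `E` under `w` has norm `p_w` and `rayNorm u = φ`. -/
theorem rayNorm_underK (hm : m ≠ 0) (hζ : IsPrimitiveRoot ζ m)
    (hinj : ∀ k : ℕ, (a ^ k) ζ = ζ → a ^ k = 1) (w : HeightOneSpectrum (𝓞 N))
    (hw : FrobDensity.Unram N w) (hmw : (m : 𝓞 N) ∉ w.asIdeal) {φ : N ≃ₐ[ℚ] N}
    (hφ : IsArithFrobAt ℤ φ w.asIdeal) (hφa : φ ∈ Subgroup.zpowers a) :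
    Ideal.absNorm (FrobDensity.underK N (fixE a) w).asIdeal = ZetaPrimes.ratPrime N w ∧
      rayNorm a ζ (FrobDensity.underK N (fixE a) w).asIdeal = ⟨φ, hφa⟩ := by
  have hprime := (FrobDensity.H12.stmt_Split N (Subgroup.zpowers a) w φ hw hφ).mp hφa
  have hnorm := FrobDensity.H12.stmt_NormUnder N (fixE a) w hprime
  refine ⟨hnorm, rayNorm_eq hinj hφa ?_⟩
  rw [hnorm]
  exact frob_apply_zeta hm hζ w hmw hφ

/-- Two natural numbers in a proper ideal are not coprime. -/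
lemma natCast_notMem_of_coprime {R : Type*} [CommRing R] (Q : Ideal R) (hQ : Q ≠ ⊤) {m ℓ : ℕ}
    (hℓ : (ℓ : R) ∈ Q) (hcop : Nat.Coprime m ℓ) : (m : R) ∉ Q := by
  intro hmQ
  apply hQ
  rw [Ideal.eq_top_iff_one]
  have h1 : ((Nat.gcd m ℓ : ℤ) : R) ∈ Q := by
    rw [Nat.gcd_eq_gcd_ab]
    push_cast
    exact Ideal.add_mem _ (Ideal.mul_mem_right _ _ hmQ) (Ideal.mul_mem_right _ _ hℓ)
  rw [hcop] at h1
  simpa using h1

theorem rayNorm_surj (hm : m ≠ 0) (hζ : IsPrimitiveRoot ζ m)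
    (hinj : ∀ k : ℕ, (a ^ k) ζ = ζ → a ^ k = 1) (x : ↥(Subgroup.zpowers a)) :
    ∃ 𝔞 : Ideal (𝓞 (fixE a)), 𝔞 ≠ ⊥ ∧ IsCoprime 𝔞 (modE a m) ∧ rayNorm a ζ 𝔞 = x := by
  obtain ⟨Q, φ, ℓ, hQp, hℓ, hℓS, hℓQ, hQin, hφ, hφa⟩ :=
    FrobDensity.stmt_FD_NF N a m.primeFactors
  have hQ0 : Q ≠ ⊥ := by
    rintro rfl
    have : (ℓ : 𝓞 N) = 0 := by simpa using hℓQ
    exact hℓ.ne_zero (by exact_mod_cast this)
  let w : HeightOneSpectrum (𝓞 N) := ⟨Q, hQp, hQ0⟩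
  have hw : FrobDensity.Unram N w := hQin
  have hcop : Nat.Coprime m ℓ := by
    rw [Nat.coprime_comm, Nat.Prime.coprime_iff_not_dvd hℓ]
    intro hdvd
    exact hℓS (Nat.mem_primeFactors.mpr ⟨hℓ, hdvd, hm⟩)
  have hmw : (m : 𝓞 N) ∉ w.asIdeal := natCast_notMem_of_coprime Q hQp.ne_top hℓQ hcop
  have hφH : φ ∈ Subgroup.zpowers a := by
    rw [← hφa]; exact Subgroup.mem_zpowers φ
  obtain ⟨hnorm, hray⟩ := rayNorm_underK hm hζ hinj w hw hmw hφ hφH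
  set u := FrobDensity.underK N (fixE a) w with hu
  have hxφ : (x : N ≃ₐ[ℚ] N) ∈ Subgroup.zpowers φ := by rw [hφa]; exact x.2
  obtain ⟨j, hj⟩ := exists_pow_of_mem_zpowers hxφ
  have hφζ : φ ζ = ζ ^ Ideal.absNorm u.asIdeal := by
    rw [hnorm]; exact frob_apply_zeta hm hζ w hmw hφ
  refine ⟨u.asIdeal ^ j, pow_ne_zero j u.ne_bot,
    (isCoprime_of_natCast_notMem u (natCast_notMem_underK w hmw)).pow_left, ?_⟩
  have h1 : (φ ^ j) ζ = ζ ^ Ideal.absNorm (u.asIdeal ^ j) := by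
    rw [map_pow]; exact pow_apply_eq hφζ j
  rw [rayNorm_eq hinj ((Subgroup.zpowers a).pow_mem hφH j) h1]
  exact Subtype.ext hj

/-- **`rayNorm` is a ray map mod `m 𝓞_E` onto `⟨a⟩`.** -/
theorem isRayMap_rayNorm (hm : m ≠ 0) (hζ : IsPrimitiveRoot ζ m)
    (hinj : ∀ k : ℕ, (a ^ k) ζ = ζ → a ^ k = 1) (hneg : ∀ k : ℕ, (a ^ k) ζ ≠ ζ⁻¹) :
    SecondIneq.IsRayMap (modE a m) (rayNorm a ζ) where
  map_mul := rayNorm_map_mul hm hζ hinj
  map_ray := rayNorm_map_ray hm hζ hinj hneg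
  surj := rayNorm_surj hm hζ hinj

end Fermat.Agent.S48.Cheb.H43
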