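import Fermat.Agent.S48.Cheb.Defs
import Fermat.Agent.S48.Cheb.H43_RootMod
import Fermat.Agent.Lib.FrobDensity.Main
import Fermat.Agent.Lib.SecondIneq.H31_RayAlg

/-!
# S48 leaf D2: the norm residue map of a cyclotomic layer is a ray map (helper43)

`N/ℚ` Galois, `ζ ∈ N` a primitive `m`-th root of unity, `a ∈ Gal(N/ℚ)` such that `⟨a⟩` acts
faithfully on `ζ` and no power of `a` inverts `ζ`; `E = N^{⟨a⟩}`.  For an ideal `I` of `𝓞 E` prime
to `m` there is a unique `σ ∈ ⟨a⟩` with `σ ζ = ζ ^ N(I)`; `I ↦ σ` is a ray map mod `m` onto `⟨a⟩`.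
-/

set_option autoImplicit false
set_option linter.unusedSectionVars false
set_option linter.style.haveILetI false

namespace Fermat.Agent.S48.Cheb.H43

open NumberField IsDedekindDomain Ideal
open Fermat.Agent.Lib

variable {N : Type} [Field N] [NumberField N] [IsGalois ℚ N] {m : ℕ} {ζ : N} {a : N ≃ₐ[ℚ] N}

/-- Elements of `⟨a⟩` are natural powers of `a`. -/
lemma exists_pow_of_mem_zpowers {σ : N ≃ₐ[ℚ] N} (h : σ ∈ Subgroup.zpowers a) :
    ∃ k : ℕ, a ^ k = σ := by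
  have := (mem_powers_iff_mem_zpowers (x := a) (y := σ)).mpr h
  exact (Submonoid.mem_powers_iff σ a).mp this

/-- Uniqueness: an element of `⟨a⟩` is determined by its action on `ζ`. -/
lemma eq_of_apply_eq (hinj : ∀ k : ℕ, (a ^ k) ζ = ζ → a ^ k = 1)
    {σ σ' : N ≃ₐ[ℚ] N} (hσ : σ ∈ Subgroup.zpowers a) (hσ' : σ' ∈ Subgroup.zpowers a)
    (h : σ ζ = σ' ζ) : σ = σ' := by
  obtain ⟨k, hk⟩ := exists_pow_of_mem_zpowers
    ((Subgroup.zpowers a).mul_mem ((Subgroup.zpowers a).inv_mem hσ') hσ)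
  have h1 : (a ^ k) ζ = ζ := by
    rw [hk, AlgEquiv.mul_apply, h]
    exact σ'.symm_apply_apply ζ
  have h2 := hinj k h1
  rw [hk] at h2
  exact (inv_mul_eq_one.mp h2).symm

/-- A Galois automorphism maps `ζ` to a power of `ζ`. -/
lemma exists_apply_eq_pow (hm : m ≠ 0) (hζ : IsPrimitiveRoot ζ m) (σ : N ≃ₐ[ℚ] N) :
    ∃ j : ℕ, σ ζ = ζ ^ j := by
  haveI : NeZero m := ⟨hm⟩
  have h1 : (σ ζ) ^ m = 1 := by rw [← map_pow, hζ.pow_eq_one, map_one]
  obtain ⟨j, -, hj⟩ := hζ.eq_pow_of_pow_eq_one h1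
  exact ⟨j, hj.symm⟩

/-- `ζ` as an algebraic integer. -/
noncomputable def zetaInt (hm : m ≠ 0) (hζ : IsPrimitiveRoot ζ m) : 𝓞 N :=
  ⟨ζ, hζ.isIntegral (Nat.pos_of_ne_zero hm)⟩

lemma zetaInt_coe (hm : m ≠ 0) (hζ : IsPrimitiveRoot ζ m) : ((zetaInt hm hζ : 𝓞 N) : N) = ζ :=
  rfl

lemma zetaInt_prim (hm : m ≠ 0) (hζ : IsPrimitiveRoot ζ m) :
    IsPrimitiveRoot (zetaInt hm hζ) m := by
  have hinj : Function.Injective (algebraMap (𝓞 N) N) := RingOfIntegers.coe_injective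
  exact IsPrimitiveRoot.of_map_of_injective (f := algebraMap (𝓞 N) N)
    (show IsPrimitiveRoot (algebraMap (𝓞 N) N (zetaInt hm hζ)) m from hζ) hinj

/-- The fixed field of `⟨a⟩`. -/
abbrev fixE (a : N ≃ₐ[ℚ] N) : IntermediateField ℚ N := FrobDensity.fixK N (Subgroup.zpowers a)

lemma mem_zpowers_of_restrictScalars (τ : N ≃ₐ[fixE a] N) :
    τ.restrictScalars ℚ ∈ Subgroup.zpowers a := by
  have h1 : τ.restrictScalars ℚ ∈
      (IntermediateField.fixedField (Subgroup.zpowers a)).fixingSubgroup := by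
    rw [IntermediateField.mem_fixingSubgroup_iff]
    intro x hx
    exact τ.commutes ⟨x, hx⟩
  rwa [IntermediateField.fixingSubgroup_fixedField] at h1

/-- Existence at primes: for a prime `u ∌ m` of `E` there is `σ ∈ ⟨a⟩` with
`σ ζ = ζ ^ N(u)` (a Frobenius element of `N/E` at a prime above `u`). -/
theorem exists_sym_prime (hm : m ≠ 0) (hζ : IsPrimitiveRoot ζ m)
    (u : Ideal (𝓞 (fixE a))) [hu : u.IsPrime] (hu0 : u ≠ ⊥) (hmu : (m : 𝓞 (fixE a)) ∉ u) :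
    ∃ σ ∈ Subgroup.zpowers a, σ ζ = ζ ^ Ideal.absNorm u := by
  obtain ⟨⟨Q, hQp, hQu⟩⟩ := Ideal.nonempty_primesOver (S := 𝓞 N) u
  have hunder : Q.under (𝓞 (fixE a)) = u := hQu.over.symm
  have hmQ : (m : 𝓞 N) ∉ Q := by
    intro h
    apply hmu
    rw [← hunder, Ideal.under_def, Ideal.mem_comap, map_natCast]
    exact h
  have hQ0 : Q ≠ ⊥ := by
    rintro rfl
    apply hu0
    rw [← hunder, Ideal.under_def]
    exact Ideal.comap_bot_of_injective _ (FaithfulSMul.algebraMap_injective _ _)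
  haveI : IsGalois (fixE a) N := IsGalois.tower_top_of_isGalois ℚ (fixE a) N
  obtain ⟨τ, hτ⟩ := FrobDensity.H12.exists_frob (K := fixE a) Q hQ0
  obtain ⟨j, hj⟩ := exists_apply_eq_pow hm hζ (τ.restrictScalars ℚ)
  refine ⟨τ.restrictScalars ℚ, mem_zpowers_of_restrictScalars τ, ?_⟩
  rw [hj]
  have hcong := (FrobDensity.H12.isArithFrobAt_iff (K := fixE a) Q τ).mp hτ (zetaInt hm hζ)
  rw [hunder] at hcong
  have h2 : τ • zetaInt hm hζ = zetaInt hm hζ ^ j := by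
    apply RingOfIntegers.ext
    exact hj
  rw [h2] at hcong
  have h3 := pow_eq_of_sub_mem hm (zetaInt_prim hm hζ) Q hmQ hcong
  have h4 := congrArg (algebraMap (𝓞 N) N) h3
  simpa [zetaInt] using h4

/-- The modulus `m 𝓞_E`. -/
abbrev modE (a : N ≃ₐ[ℚ] N) (m : ℕ) : Ideal (𝓞 (fixE a)) := Ideal.span {(m : 𝓞 (fixE a))}

lemma modE_ne_bot (hm : m ≠ 0) : modE a m ≠ ⊥ := by
  intro h
  rw [Ideal.span_singleton_eq_bot] at h
  exact hm (by exact_mod_cast h)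

lemma natCast_notMem_of_isCoprime {p : Ideal (𝓞 (fixE a))} (hp : p.IsPrime)
    (h : IsCoprime p (modE a m)) : (m : 𝓞 (fixE a)) ∉ p := by
  intro hmem
  have hle : modE a m ≤ p := (Ideal.span_singleton_le_iff_mem p).mpr hmem
  have := Ideal.isCoprime_iff_sup_eq.mp h
  rw [sup_eq_left.mpr hle] at this
  exact hp.ne_top this

/-- Existence for all nonzero ideals prime to `m`. -/
theorem exists_sym (hm : m ≠ 0) (hζ : IsPrimitiveRoot ζ m) (I : Ideal (𝓞 (fixE a)))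
    (hI0 : I ≠ ⊥) (hI : IsCoprime I (modE a m)) :
    ∃ σ ∈ Subgroup.zpowers a, σ ζ = ζ ^ Ideal.absNorm I := by
  induction I using UniqueFactorizationMonoid.induction_on_prime with
  | h₁ => exact absurd rfl hI0
  | h₂ x hx =>
    rw [Ideal.isUnit_iff] at hx
    subst hx
    exact ⟨1, one_mem _, by simp⟩
  | h₃ J p hJ0 hp ih =>
    have hpP : p.IsPrime := Ideal.isPrime_of_prime hp
    have hp0 : p ≠ ⊥ := hp.ne_zero
    have hcp : IsCoprime p (modE a m) := hI.of_mul_left_left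
    have hcJ : IsCoprime J (modE a m) := hI.of_mul_left_right
    obtain ⟨σ₁, hσ₁, h₁⟩ := exists_sym_prime hm hζ p hp0 (natCast_notMem_of_isCoprime hpP hcp)
    obtain ⟨σ₂, hσ₂, h₂⟩ := ih hJ0 hcJ
    refine ⟨σ₁ * σ₂, (Subgroup.zpowers a).mul_mem hσ₁ hσ₂, ?_⟩
    rw [AlgEquiv.mul_apply, h₂, map_pow, h₁, ← pow_mul, map_mul]

open Classical in
/-- The norm residue map: `I ↦` the `σ ∈ ⟨a⟩` with `σ ζ = ζ ^ N(I)` (junk value `1` if there is
none). -/
noncomputable def rayNorm (a : N ≃ₐ[ℚ] N) (ζ : N) (I : Ideal (𝓞 (fixE a))) :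
    ↥(Subgroup.zpowers a) :=
  if h : ∃ σ ∈ Subgroup.zpowers a, σ ζ = ζ ^ Ideal.absNorm I then ⟨h.choose, h.choose_spec.1⟩
  else 1

lemma rayNorm_eq (hinj : ∀ k : ℕ, (a ^ k) ζ = ζ → a ^ k = 1) {I : Ideal (𝓞 (fixE a))}
    {σ : N ≃ₐ[ℚ] N} (hσ : σ ∈ Subgroup.zpowers a) (h : σ ζ = ζ ^ Ideal.absNorm I) :
    rayNorm a ζ I = ⟨σ, hσ⟩ := by
  have hex : ∃ σ ∈ Subgroup.zpowers a, σ ζ = ζ ^ Ideal.absNorm I := ⟨σ, hσ, h⟩
  unfold rayNorm
  rw [dif_pos hex]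
  apply Subtype.ext
  exact eq_of_apply_eq hinj hex.choose_spec.1 hσ (hex.choose_spec.2.trans h.symm)

end Fermat.Agent.S48.Cheb.H43
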