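import Mathlib

/-!
# S48, leaf D3 (helper55): the choice of the modulus `m = 4 q`

`exists_modulus`: for `n ≥ 1` and `η > 0` there are `m ≠ 0` and a set `Bad` of units mod `m` with
`#Bad ≤ η φ(m)` such that every unit `t ∉ Bad` has order divisible by `n` and no power of `t` is
`-1`.

Proof: `D = 4 n`, `2 ^ K ≥ D / η`, `q` a prime `≡ 1 mod D ^ K`, `m = 4 q`;
`Bad = {t : D ∤ ord (t mod q)}`.  In the cyclic group `(ℤ/q)ˣ` of order `Q`, an element of order
not divisible by `D` is killed by `Q / π ^ K` for some prime `π ∣ D`.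
-/

set_option autoImplicit false
set_option linter.style.haveILetI false

namespace Fermat.Agent.S48.Cheb.H55

/-- If `o ∣ Q`, `D ^ K ∣ Q` and `D ∤ o`, then `o ∣ Q / π ^ K` for some prime `π ∣ D`. -/
theorem dvd_div_pow_of_not_dvd (D K o Q : ℕ) (hD : D ≠ 0) (hK : 1 ≤ K) (hQ : Q ≠ 0)
    (ho : o ∣ Q) (hDK : D ^ K ∣ Q) (hDo : ¬ D ∣ o) : ∃ π ∈ D.primeFactors, o ∣ Q / π ^ K := by
  have ho0 : o ≠ 0 := fun h => by
    subst h
    exact hQ (zero_dvd_iff.mp ho)
  have h1 : ¬ D.factorization ≤ o.factorization := fun h =>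
    hDo ((Nat.factorization_le_iff_dvd hD ho0).mp h)
  rw [Finsupp.le_def, not_forall] at h1
  obtain ⟨π, hπ⟩ := h1
  rw [not_le] at hπ
  have hπD : π ∈ D.primeFactors := by
    rw [← Nat.support_factorization, Finsupp.mem_support_iff]
    omega
  have hπp : π.Prime := Nat.prime_of_mem_primeFactors hπD
  refine ⟨π, hπD, ?_⟩
  have hπKQ : π ^ K ∣ Q := (pow_dvd_pow_of_dvd (Nat.dvd_of_mem_primeFactors hπD) K).trans hDK
  have hq0 : Q / π ^ K ≠ 0 := by
    obtain ⟨c, hc⟩ := hπKQ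
    rw [hc, Nat.mul_div_cancel_left _ (pow_pos hπp.pos K)]
    rintro rfl
    exact hQ (by rw [hc, mul_zero])
  rw [← Nat.factorization_le_iff_dvd ho0 hq0, Nat.factorization_div hπKQ, Finsupp.le_def]
  intro r
  rw [Finsupp.tsub_apply, Nat.factorization_pow, Finsupp.smul_apply, hπp.factorization,
    smul_eq_mul]
  have hoQ : o.factorization r ≤ Q.factorization r :=
    (Nat.factorization_le_iff_dvd ho0 hQ).mpr ho r
  by_cases hr : r = π
  · subst hr
    rw [Finsupp.single_eq_same, mul_one]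
    have h2 : K * D.factorization r ≤ Q.factorization r := by
      have h3 := (Nat.factorization_le_iff_dvd (pow_ne_zero K hD) hQ).mpr hDK r
      rw [Nat.factorization_pow, Finsupp.smul_apply, smul_eq_mul] at h3
      exact h3
    have h4 : o.factorization r + K ≤ K * D.factorization r := by
      nlinarith [Nat.mul_le_mul_left K (Nat.succ_le_of_lt hπ),
        Nat.mul_le_mul_right (o.factorization r) hK]
    omega
  · rw [Finsupp.single_eq_of_ne hr, mul_zero, Nat.sub_zero]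
    exact hoQ

/-- In `(ℤ/q)ˣ`, few elements have an order not divisible by `D`, if `D ^ K ∣ q - 1`. -/
theorem card_bad_mul_le (q : ℕ) [hq : Fact q.Prime] (D K : ℕ) (hD : D ≠ 0) (hK : 1 ≤ K)
    (hDK : D ^ K ∣ q - 1) :
    (Finset.univ.filter (fun x : (ZMod q)ˣ => ¬ D ∣ orderOf x)).card * 2 ^ K ≤ D * (q - 1) := by
  classical
  have hQ : q - 1 ≠ 0 := by
    have := hq.out.two_le
    omega
  have hcard : Fintype.card (ZMod q)ˣ = q - 1 := ZMod.card_units q
  set bad : Finset (ZMod q)ˣ := Finset.univ.filter (fun x : (ZMod q)ˣ => ¬ D ∣ orderOf x)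
    with hbad
  have hsub : bad ⊆ D.primeFactors.biUnion
      (fun π => Finset.univ.filter (fun x : (ZMod q)ˣ => x ^ ((q - 1) / π ^ K) = 1)) := by
    intro x hx
    have hx' : ¬ D ∣ orderOf x := (Finset.mem_filter.mp hx).2
    have hox : orderOf x ∣ q - 1 := hcard ▸ orderOf_dvd_card
    obtain ⟨π, hπ, hdvd⟩ := dvd_div_pow_of_not_dvd D K (orderOf x) (q - 1) hD hK hQ hox hDK hx'
    rw [Finset.mem_biUnion]
    exact ⟨π, hπ, Finset.mem_filter.mpr ⟨Finset.mem_univ _, orderOf_dvd_iff_pow_eq_one.mp hdvd⟩⟩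
  have h1 : bad.card ≤ ∑ π ∈ D.primeFactors, (q - 1) / π ^ K := by
    refine (Finset.card_le_card hsub).trans (Finset.card_biUnion_le.trans ?_)
    refine Finset.sum_le_sum fun π hπ => ?_
    have hπp : π.Prime := Nat.prime_of_mem_primeFactors hπ
    have hπKQ : π ^ K ∣ q - 1 :=
      (pow_dvd_pow_of_dvd (Nat.dvd_of_mem_primeFactors hπ) K).trans hDK
    have hpos : 0 < (q - 1) / π ^ K :=
      Nat.div_pos (Nat.le_of_dvd (Nat.pos_of_ne_zero hQ) hπKQ) (pow_pos hπp.pos K)
    exact IsCyclic.card_pow_eq_one_le hpos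
  have h2 : (∑ π ∈ D.primeFactors, (q - 1) / π ^ K) * 2 ^ K ≤ D.primeFactors.card * (q - 1) := by
    rw [Finset.sum_mul, ← smul_eq_mul, ← Finset.sum_const]
    refine Finset.sum_le_sum fun π hπ => ?_
    have hπp : π.Prime := Nat.prime_of_mem_primeFactors hπ
    calc (q - 1) / π ^ K * 2 ^ K ≤ (q - 1) / π ^ K * π ^ K :=
          Nat.mul_le_mul_left _ (Nat.pow_le_pow_left hπp.two_le K)
      _ ≤ q - 1 := Nat.div_mul_le_self _ _
  have h3 : D.primeFactors.card ≤ D := by
    have hsub' : D.primeFactors ⊆ Finset.Icc 1 D := by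
      intro π hπ
      rw [Finset.mem_Icc]
      exact ⟨(Nat.prime_of_mem_primeFactors hπ).one_le,
        Nat.le_of_dvd (Nat.pos_of_ne_zero hD) (Nat.dvd_of_mem_primeFactors hπ)⟩
    have := Finset.card_le_card hsub'
    rwa [Nat.card_Icc, Nat.add_sub_cancel] at this
  calc bad.card * 2 ^ K ≤ (∑ π ∈ D.primeFactors, (q - 1) / π ^ K) * 2 ^ K :=
        Nat.mul_le_mul_right _ h1
    _ ≤ D.primeFactors.card * (q - 1) := h2
    _ ≤ D * (q - 1) := Nat.mul_le_mul_right _ h3

end Fermat.Agent.S48.Cheb.H55
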