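import Fermat.Agent.S48.Cheb.H55_Exp

/-!
# S48, leaf D3 (helper55): the modulus `m = 4 q` and its bad units

`exists_modulus`: for `n ≥ 1` and `η > 0` there are `m ≠ 0` and a set `Bad` of units mod `m` with
`#Bad ≤ η φ(m)` such that every unit `t ∉ Bad` has order divisible by `n` and no power of `t` is
`-1`.
-/

set_option autoImplicit false
set_option linter.style.haveILetI false

namespace Fermat.Agent.S48.Cheb.H55

/-- Chinese remainder theorem for units modulo `4 q`, `q` odd. -/
theorem units_ext_four_mul (q : ℕ) (hq : Nat.Coprime 4 q) (t t' : (ZMod (4 * q))ˣ)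
    (h4 : ZMod.unitsMap (dvd_mul_right 4 q) t = ZMod.unitsMap (dvd_mul_right 4 q) t')
    (hq' : ZMod.unitsMap (dvd_mul_left q 4) t = ZMod.unitsMap (dvd_mul_left q 4) t') :
    t = t' := by
  apply Units.ext
  apply (ZMod.chineseRemainder hq).injective
  have e1 : ∀ x : ZMod (4 * q), (ZMod.chineseRemainder hq x).1 =
      ZMod.castHom (dvd_mul_right 4 q) (ZMod 4) x := by
    intro x
    have : (RingHom.fst (ZMod 4) (ZMod q)).comp (ZMod.chineseRemainder hq).toRingHom =
        ZMod.castHom (dvd_mul_right 4 q) (ZMod 4) := RingHom.ext_zmod _ _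
    exact RingHom.congr_fun this x
  have e2 : ∀ x : ZMod (4 * q), (ZMod.chineseRemainder hq x).2 =
      ZMod.castHom (dvd_mul_left q 4) (ZMod q) x := by
    intro x
    have : (RingHom.snd (ZMod 4) (ZMod q)).comp (ZMod.chineseRemainder hq).toRingHom =
        ZMod.castHom (dvd_mul_left q 4) (ZMod q) := RingHom.ext_zmod _ _
    exact RingHom.congr_fun this x
  apply Prod.ext
  · rw [e1, e1]
    exact congrArg Units.val h4
  · rw [e2, e2]
    exact congrArg Units.val hq'

/-- The units modulo `4` have exponent `2`. -/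
theorem units_four_sq (u : (ZMod 4)ˣ) : u ^ 2 = 1 := by
  revert u
  decide

theorem units_four_neg_one_ne : (-1 : (ZMod 4)ˣ) ≠ 1 := by decide

/-- The choice of the modulus. -/
theorem exists_modulus (n : ℕ) (hn : 0 < n) (η : ℝ) (hη : 0 < η) :
    ∃ m : ℕ, m ≠ 0 ∧ ∃ Bad : Finset (ZMod m)ˣ,
      (Bad.card : ℝ) ≤ η * (Nat.totient m) ∧
      ∀ t : (ZMod m)ˣ, t ∉ Bad → n ∣ orderOf t ∧ ∀ k : ℕ, t ^ k ≠ -1 := by
  classical
  set D : ℕ := 4 * n with hD
  have hD0 : D ≠ 0 := by omega
  obtain ⟨K₀, hK₀⟩ := pow_unbounded_of_one_lt ((D : ℝ) / η) (one_lt_two)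
  set K : ℕ := K₀ + 1 with hK
  have hK1 : 1 ≤ K := by omega
  have hDK : (D : ℝ) ≤ η * 2 ^ K := by
    have h1 : (D : ℝ) / η < 2 ^ K := by
      refine hK₀.trans_le ?_
      exact pow_le_pow_right₀ (by norm_num) (by omega)
    rw [div_lt_iff₀ hη] at h1
    linarith
  obtain ⟨q, hqp, hq2, hqmod⟩ := Nat.exists_prime_gt_modEq_one (k := D ^ K) 2 (pow_ne_zero K hD0)
  haveI : Fact q.Prime := ⟨hqp⟩
  have hqdvd : D ^ K ∣ q - 1 := (Nat.modEq_iff_dvd' hqp.one_le).mp hqmod.symm
  have hcop : Nat.Coprime 4 q := by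
    have h2 : Nat.Coprime 2 q := by
      rw [Nat.coprime_primes Nat.prime_two hqp]
      omega
    exact Nat.Coprime.pow_left 2 h2
  have hm0 : 4 * q ≠ 0 := by
    have := hqp.pos
    omega
  haveI : NeZero (4 * q) := ⟨hm0⟩
  set red : (ZMod (4 * q))ˣ →* (ZMod q)ˣ := ZMod.unitsMap (dvd_mul_left q 4) with hred
  set red4 : (ZMod (4 * q))ˣ →* (ZMod 4)ˣ := ZMod.unitsMap (dvd_mul_right 4 q) with hred4
  set Bad : Finset (ZMod (4 * q))ˣ := Finset.univ.filter (fun t => ¬ D ∣ orderOf (red t))
    with hBad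
  refine ⟨4 * q, hm0, Bad, ?_, ?_⟩
  · -- the count
    set bad : Finset (ZMod q)ˣ := Finset.univ.filter (fun x : (ZMod q)ˣ => ¬ D ∣ orderOf x)
      with hbad
    have h1 : Bad.card ≤ 2 * bad.card := by
      have h2 : Bad.card ≤ 2 * (Bad.image red).card := by
        apply Finset.card_le_mul_card_image
        intro x _
        have h3 : (Finset.filter (fun t => red t = x) Bad).card ≤
            (Finset.univ : Finset (ZMod 4)ˣ).card := by
          apply Finset.card_le_card_of_injOn red4 (fun _ _ => Finset.mem_coe.mpr (Finset.mem_univ _))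
          intro t ht t' ht' htt'
          have ht1 := (Finset.mem_filter.mp (Finset.mem_coe.mp ht)).2
          have ht2 := (Finset.mem_filter.mp (Finset.mem_coe.mp ht')).2
          exact units_ext_four_mul q hcop t t' htt' (ht1.trans ht2.symm)
        have h4 : (Finset.univ : Finset (ZMod 4)ˣ).card = 2 := by decide
        rw [h4] at h3
        exact h3
      have h5 : (Bad.image red).card ≤ bad.card := by
        apply Finset.card_le_card
        intro x hx
        obtain ⟨t, ht, rfl⟩ := Finset.mem_image.mp hx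
        exact Finset.mem_filter.mpr ⟨Finset.mem_univ _, (Finset.mem_filter.mp ht).2⟩
      exact h2.trans (Nat.mul_le_mul_left 2 h5)
    have h6 := card_bad_mul_le q D K hD0 hK1 hqdvd
    have htot : Nat.totient (4 * q) = 2 * (q - 1) := by
      rw [Nat.totient_mul hcop, Nat.totient_prime hqp]
      have : Nat.totient 4 = 2 := by decide
      rw [this]
    rw [htot]
    have h7 : (bad.card : ℝ) * 2 ^ K ≤ (D : ℝ) * ((q - 1 : ℕ) : ℝ) := by
      exact_mod_cast h6
    have h8 : (Bad.card : ℝ) ≤ 2 * (bad.card : ℝ) := by exact_mod_cast h1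
    have hpow : (0 : ℝ) < 2 ^ K := by positivity
    have hQ0 : (0 : ℝ) ≤ ((q - 1 : ℕ) : ℝ) := Nat.cast_nonneg _
    have h9 : (bad.card : ℝ) * 2 ^ K ≤ η * 2 ^ K * ((q - 1 : ℕ) : ℝ) :=
      h7.trans (mul_le_mul_of_nonneg_right hDK hQ0)
    have h10 : (bad.card : ℝ) ≤ η * ((q - 1 : ℕ) : ℝ) := by
      by_contra hcon
      rw [not_le] at hcon
      have := mul_lt_mul_of_pos_right hcon hpow
      nlinarith
    push_cast
    nlinarith
  · -- good units
    intro t ht
    have hgood : D ∣ orderOf (red t) := by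
      by_contra hcon
      exact ht (Finset.mem_filter.mpr ⟨Finset.mem_univ _, hcon⟩)
    refine ⟨?_, ?_⟩
    · exact (Dvd.intro_left 4 rfl).trans (hgood.trans (orderOf_map_dvd red t))
    · intro k hk
      have h4 : red4 t ^ k = -1 := by
        rw [← map_pow, hk]
        apply Units.ext
        simp [hred4, ZMod.unitsMap]
      have hq' : red t ^ k = -1 := by
        rw [← map_pow, hk]
        apply Units.ext
        simp [hred, ZMod.unitsMap]
      -- `k` is odd
      have hodd : ¬ 2 ∣ k := by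
        rintro ⟨j, rfl⟩
        rw [pow_mul, units_four_sq, one_pow] at h4
        exact units_four_neg_one_ne h4.symm
      -- `k` is even
      have h2k : red t ^ (2 * k) = 1 := by
        rw [pow_mul', hq']
        simp
      have h5 : orderOf (red t) ∣ 2 * k := orderOf_dvd_of_pow_eq_one h2k
      have h6 : 4 ∣ 2 * k := (Dvd.intro n rfl : 4 ∣ D).trans (hgood.trans h5)
      apply hodd
      omega

end Fermat.Agent.S48.Cheb.H55
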