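import Mathlib

/-!
# S48 leaf D3, field theory: `N = L(ζ_m)` and the automorphisms extending `g`

* `isGalois_cyclotomicField` : `L(ζ_m)/ℚ` is Galois if `L/ℚ` is;
* `eq_one_of_res_of_zeta`    : an automorphism of `N = L(ζ)` trivial on `L` and on `ζ` is trivial;
* `exists_good_set`          : the set `R` of the `a ∈ Gal(N/ℚ)` with `a|_L = g` whose action on `ζ`
  avoids a given set `Bad` of units mod `m` has at least `[N : L] - #Bad` elements, and its
  elements satisfy the two hypotheses of the cyclotomic case if the units outside `Bad` are good;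
* `totient_le_finrank_mul`   : `φ(m) ≤ [L : ℚ] [N : L]`.
-/

set_option autoImplicit false
set_option linter.style.haveILetI false
set_option linter.unusedSectionVars false

open NumberField Polynomial

namespace Fermat.Agent.S48.Cheb.H78

/-- `L(ζ_m)` is Galois over `ℚ` if `L` is. -/
theorem isGalois_cyclotomicField (L : Type) [Field L] [NumberField L] [IsGalois ℚ L]
    (m : ℕ) [NeZero m] : IsGalois ℚ (CyclotomicField m L) := by
  obtain ⟨f, hfsep, hf⟩ := IsGalois.is_separable_splitting_field ℚ L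
  haveI := hf
  haveI : Polynomial.IsSplittingField L (CyclotomicField m L)
      ((Polynomial.cyclotomic m ℚ).map (algebraMap ℚ L)) := by
    rw [Polynomial.map_cyclotomic]
    exact IsCyclotomicExtension.splitting_field_cyclotomic m L _
  haveI := Polynomial.IsSplittingField.mul (F := ℚ) (K := L) (CyclotomicField m L) f
    (Polynomial.cyclotomic m ℚ) hfsep.ne_zero (Polynomial.cyclotomic_ne_zero m ℚ)
  haveI : Normal ℚ (CyclotomicField m L) := Normal.of_isSplittingField (f * cyclotomic m ℚ)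
  exact ⟨⟩

section grp

variable (L : Type) [Field L] [NumberField L] [IsGalois ℚ L]
  (N : Type) [Field N] [NumberField N] [IsGalois ℚ N] [Algebra L N]
  (m : ℕ) [NeZero m] [IsCyclotomicExtension {m} L N] (ζ : N) (hζ : IsPrimitiveRoot ζ m)

include hζ in
/-- An automorphism of `N = L(ζ)` trivial on `L` and on `ζ` is trivial. -/
theorem eq_one_of_res_of_zeta (a : N ≃ₐ[ℚ] N) (hres : AlgEquiv.restrictNormalHom L a = 1)
    (hz : a ζ = ζ) : a = 1 := by
  have hfix : ∀ x : L, a (algebraMap L N x) = algebraMap L N x := by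
    intro x
    have := AlgEquiv.restrictNormal_commutes a L x
    rw [← this]
    have h1 : a.restrictNormal L = 1 := hres
    rw [h1]; rfl
  let a' : N →ₐ[L] N := { (a : N →+* N) with commutes' := hfix }
  have htop : Algebra.adjoin L {ζ} = ⊤ := IsCyclotomicExtension.adjoin_primitive_root_eq_top hζ
  have : a' = AlgHom.id L N := by
    apply AlgHom.ext_of_adjoin_eq_top htop
    intro x hx
    rw [Set.mem_singleton_iff] at hx
    subst hx
    exact hz
  ext x
  exact DFunLike.congr_fun this x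

include hζ in
lemma zeta_pow_val_one : ζ ^ (1 : ZMod m).val = ζ := by
  rw [ZMod.val_one_eq_one_mod]
  rcases Nat.lt_or_ge 1 m with h | h
  · rw [Nat.mod_eq_of_lt h, pow_one]
  · have hm1 : m = 1 := le_antisymm h (Nat.pos_of_ne_zero (NeZero.ne m))
    subst hm1
    simp only [Nat.mod_self, pow_zero]
    exact (hζ.pow_eq_one.symm.trans (pow_one ζ))

/-- `χ b = 1` if `b ζ = ζ`. -/
theorem autToPow_eq_one_of_fix (b : N ≃ₐ[ℚ] N) (hb : b ζ = ζ) : hζ.autToPow ℚ b = 1 := by
  have h := hζ.autToPow_spec ℚ b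
  rw [hb] at h
  set v := ((hζ.autToPow ℚ b : (ZMod m)ˣ) : ZMod m).val with hv
  have h1 : ζ ^ ((v : ℤ) - 1) = 1 := by
    have hz0 : ζ ≠ 0 := hζ.ne_zero (NeZero.ne m)
    rw [zpow_sub₀ hz0, zpow_natCast, zpow_one, h, div_self hz0]
  have h2 : (m : ℤ) ∣ (v : ℤ) - 1 := (hζ.zpow_eq_one_iff_dvd _).mp h1
  have h3 : (((v : ℤ) - 1 : ℤ) : ZMod m) = 0 := (ZMod.intCast_zmod_eq_zero_iff_dvd _ _).mpr h2
  have h4 : ((v : ℕ) : ZMod m) = 1 := by
    push_cast at h3
    exact sub_eq_zero.mp h3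
  rw [hv, ZMod.natCast_zmod_val] at h4
  exact Units.ext h4

/-- `χ b = -1` if `b ζ = ζ⁻¹`. -/
theorem autToPow_eq_neg_one_of_inv (b : N ≃ₐ[ℚ] N) (hb : b ζ = ζ⁻¹) :
    hζ.autToPow ℚ b = -1 := by
  have h := hζ.autToPow_spec ℚ b
  rw [hb] at h
  set v := ((hζ.autToPow ℚ b : (ZMod m)ˣ) : ZMod m).val with hv
  have h1 : ζ ^ ((v : ℤ) + 1) = 1 := by
    have hz0 : ζ ≠ 0 := hζ.ne_zero (NeZero.ne m)
    rw [zpow_add₀ hz0, zpow_natCast, zpow_one, h, inv_mul_cancel₀ hz0]
  have h2 : (m : ℤ) ∣ (v : ℤ) + 1 := (hζ.zpow_eq_one_iff_dvd _).mp h1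
  have h3 : (((v : ℤ) + 1 : ℤ) : ZMod m) = 0 := (ZMod.intCast_zmod_eq_zero_iff_dvd _ _).mpr h2
  have h4 : ((v : ℕ) : ZMod m) = -1 := by
    push_cast at h3
    exact eq_neg_of_add_eq_zero_left h3
  rw [hv, ZMod.natCast_zmod_val] at h4
  apply Units.ext
  rw [h4]; simp

include hζ in
/-- `(res, χ)` is injective. -/
theorem eq_of_res_of_autToPow (a b : N ≃ₐ[ℚ] N)
    (hres : AlgEquiv.restrictNormalHom L a = AlgEquiv.restrictNormalHom L b)
    (hχ : hζ.autToPow ℚ a = hζ.autToPow ℚ b) : a = b := by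
  have h1 : AlgEquiv.restrictNormalHom L (a⁻¹ * b) = 1 := by
    rw [map_mul, map_inv, hres, inv_mul_cancel]
  have h2 : hζ.autToPow ℚ (a⁻¹ * b) = 1 := by
    rw [map_mul, map_inv, hχ, inv_mul_cancel]
  have h3 : (a⁻¹ * b) ζ = ζ := by
    have := hζ.autToPow_spec ℚ (a⁻¹ * b)
    rw [h2, Units.val_one, zeta_pow_val_one N m ζ hζ] at this
    exact this.symm
  have := eq_one_of_res_of_zeta L N m ζ hζ _ h1 h3
  exact inv_mul_eq_one.mp this

/-- The kernel of the restriction `Gal(N/ℚ) → Gal(L/ℚ)` has `[N : L]` elements. -/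
theorem card_ker_res :
    Nat.card (AlgEquiv.restrictNormalHom (F := ℚ) (K₁ := N) L).ker = Module.finrank L N := by
  set res := AlgEquiv.restrictNormalHom (F := ℚ) (K₁ := N) L with hres
  have hsurj : Function.Surjective res := AlgEquiv.restrictNormalHom_surjective N
  have h1 : Nat.card res.ker * res.ker.index = Nat.card (N ≃ₐ[ℚ] N) :=
    Subgroup.card_mul_index res.ker
  have h2 : res.ker.index = Nat.card (L ≃ₐ[ℚ] L) := by
    rw [Subgroup.index_ker, MonoidHom.range_eq_top.mpr hsurj, Subgroup.card_top]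
  rw [h2, IsGalois.card_aut_eq_finrank, IsGalois.card_aut_eq_finrank,
    ← Module.finrank_mul_finrank ℚ L N, mul_comm] at h1
  exact Nat.eq_of_mul_eq_mul_left Module.finrank_pos h1

include hζ in
/-- `φ(m) ≤ [L : ℚ] [N : L]`. -/
theorem totient_le_finrank_mul :
    Nat.totient m ≤ Module.finrank ℚ L * Module.finrank L N := by
  rw [Module.finrank_mul_finrank ℚ L N]
  have h1 : Polynomial.cyclotomic m ℚ = minpoly ℚ ζ :=
    Polynomial.cyclotomic_eq_minpoly_rat hζ (Nat.pos_of_ne_zero (NeZero.ne m))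
  have h2 := minpoly.natDegree_le (A := ℚ) ζ
  rw [← h1, Polynomial.natDegree_cyclotomic] at h2
  exact h2

include hζ in
/-- The good extensions of `g`. -/
theorem exists_good_set (g : L ≃ₐ[ℚ] L) (Bad : Finset (ZMod m)ˣ)
    (hgood : ∀ t : (ZMod m)ˣ, t ∉ Bad → orderOf g ∣ orderOf t ∧ ∀ k : ℕ, t ^ k ≠ -1) :
    ∃ R : Finset (N ≃ₐ[ℚ] N),
      (∀ a ∈ R, AlgEquiv.restrictNormalHom L a = g) ∧
      (∀ a ∈ R, (∀ k : ℕ, (a ^ k) ζ = ζ → a ^ k = 1) ∧ ∀ k : ℕ, (a ^ k) ζ ≠ ζ⁻¹) ∧
      Module.finrank L N ≤ R.card + Bad.card := by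
  classical
  haveI : Fintype (N ≃ₐ[ℚ] N) := Fintype.ofFinite _
  set res := AlgEquiv.restrictNormalHom (F := ℚ) (K₁ := N) L with hres
  set χ := hζ.autToPow ℚ with hχ
  have hsurj : Function.Surjective res := AlgEquiv.restrictNormalHom_surjective N
  obtain ⟨a₀, ha₀⟩ := hsurj g
  set Ag : Finset (N ≃ₐ[ℚ] N) := Finset.univ.filter (fun a => res a = g) with hAg
  -- `#A_g = [N : L]`
  have hAgcard : Ag.card = Module.finrank L N := by
    rw [← card_ker_res L N, Nat.card_eq_fintype_card, ← Finset.card_univ]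
    symm
    refine Finset.card_bij (fun k _ => a₀ * (k : N ≃ₐ[ℚ] N)) ?_ ?_ ?_
    · intro k _
      rw [hAg, Finset.mem_filter]
      refine ⟨Finset.mem_univ _, ?_⟩
      rw [map_mul, ha₀, (MonoidHom.mem_ker).mp k.2, mul_one]
    · intro k _ k' _ h
      exact Subtype.ext (mul_left_cancel h)
    · intro a ha
      rw [hAg, Finset.mem_filter] at ha
      refine ⟨⟨a₀⁻¹ * a, ?_⟩, Finset.mem_univ _, ?_⟩
      · rw [MonoidHom.mem_ker, map_mul, map_inv, ha₀, ha.2, inv_mul_cancel]
      · simp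
  refine ⟨Ag.filter (fun a => χ a ∉ Bad), ?_, ?_, ?_⟩
  · intro a ha
    rw [Finset.mem_filter, hAg, Finset.mem_filter] at ha
    exact ha.1.2
  · intro a ha
    rw [Finset.mem_filter, hAg, Finset.mem_filter] at ha
    obtain ⟨hord, hneg⟩ := hgood (χ a) ha.2
    constructor
    · intro k hk
      have h1 : χ (a ^ k) = 1 := autToPow_eq_one_of_fix N m ζ hζ _ hk
      rw [map_pow] at h1
      have h2 : orderOf g ∣ k := hord.trans (orderOf_dvd_of_pow_eq_one h1)
      have h3 : res (a ^ k) = 1 := by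
        rw [map_pow, ha.1.2]
        exact orderOf_dvd_iff_pow_eq_one.mp h2
      exact eq_one_of_res_of_zeta L N m ζ hζ _ h3 hk
    · intro k hk
      have h1 : χ (a ^ k) = -1 := autToPow_eq_neg_one_of_inv N m ζ hζ _ hk
      rw [map_pow] at h1
      exact hneg k h1
  · rw [← hAgcard]
    have hsplit : Ag.card = (Ag.filter (fun a => χ a ∉ Bad)).card +
        (Ag.filter (fun a => ¬ χ a ∉ Bad)).card :=
      (Finset.card_filter_add_card_filter_not (s := Ag) (fun a => χ a ∉ Bad)).symm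
    rw [hsplit]
    apply Nat.add_le_add_left
    apply Finset.card_le_card_of_injOn χ
    · intro a ha
      rw [Finset.mem_coe, Finset.mem_filter] at ha
      exact Finset.mem_coe.mpr (not_not.mp ha.2)
    · intro a ha b hb hab
      rw [Finset.mem_coe, Finset.mem_filter, hAg, Finset.mem_filter] at ha hb
      exact eq_of_res_of_autToPow L N m ζ hζ a b (ha.1.2.trans hb.1.2.symm) hab

end grp

end Fermat.Agent.S48.Cheb.H78
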