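import Fermat.Agent.S48.Cheb.Defs
import Fermat.Agent.S48.Cheb.H31_Cross
import Fermat.Agent.S48.Cheb.H55_Modulus
import Fermat.Agent.S48.Cheb.H78_CrossField

/-!
# S48 leaf D3: `chebNF_of : Stmt_ChebCyc → Stmt_ChebNF`

Chebotarev's crossing argument: `N = L(ζ_m)` with `m` from `H55.exists_modulus`, the good
extensions `R` of `g` to `N` (`H78.exists_good_set`), the cyclotomic case for each `a ∈ R`, and
`H31.sum_tsum_frobEq_le`.
-/

set_option autoImplicit false
set_option linter.style.haveILetI false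

open NumberField

namespace Fermat.Agent.S48.Cheb.H78

open Fermat.Agent.Lib

/-- **D3**: Chebotarev for number fields with loss, from the cyclotomic case. -/
theorem chebNF_of (hCyc : Stmt_ChebCyc) : Stmt_ChebNF := by
  classical
  intro L _ _ _ g η hη
  set D : ℕ := Module.finrank ℚ L with hD
  have hDpos : 0 < D := Module.finrank_pos
  have hDR : (0 : ℝ) < D := by exact_mod_cast hDpos
  obtain ⟨m, hm, Bad, hBad, hgood⟩ :=
    H55.exists_modulus (orderOf g) (orderOf_pos g) (η / D) (div_pos hη hDR)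
  haveI : NeZero m := ⟨hm⟩
  haveI : IsGalois ℚ (CyclotomicField m L) := isGalois_cyclotomicField L m
  have hζ : IsPrimitiveRoot (IsCyclotomicExtension.zeta m L (CyclotomicField m L)) m :=
    IsCyclotomicExtension.zeta_spec m L (CyclotomicField m L)
  obtain ⟨R, hRres, hRgood, hRcard⟩ :=
    exists_good_set L (CyclotomicField m L) m _ hζ g Bad hgood
  have htot := totient_le_finrank_mul L (CyclotomicField m L) m _ hζ
  set d : ℕ := Module.finrank L (CyclotomicField m L) with hd
  have hdpos : 0 < d := Module.finrank_pos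
  have hdR : (0 : ℝ) < d := by exact_mod_cast hdpos
  -- `#R ≥ (1 - η) d`
  have hRbig : (1 - η) * (d : ℝ) ≤ (R.card : ℝ) := by
    have h1 : (d : ℝ) ≤ (R.card : ℝ) + (Bad.card : ℝ) := by exact_mod_cast hRcard
    have h2 : (Nat.totient m : ℝ) ≤ (D : ℝ) * (d : ℝ) := by exact_mod_cast htot
    have h3 : (Bad.card : ℝ) ≤ η * (d : ℝ) := by
      calc (Bad.card : ℝ) ≤ η / D * (Nat.totient m) := hBad
        _ ≤ η / D * ((D : ℝ) * (d : ℝ)) :=
            mul_le_mul_of_nonneg_left h2 (div_pos hη hDR).le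
        _ = η * (d : ℝ) := by field_simp
    linarith
  -- constants of the cyclotomic case
  have hex : ∀ a : CyclotomicField m L ≃ₐ[ℚ] CyclotomicField m L, ∃ C : ℝ, a ∈ R →
      ∀ s : ℝ, 1 < s → s ≤ 2 →
        Real.log (1 / (s - 1)) - C ≤
          ∑' w : frobEq (CyclotomicField m L) a, FrobDensity.wt (CyclotomicField m L) s w.1 := by
    intro a
    by_cases ha : a ∈ R
    · obtain ⟨C, hC⟩ := hCyc (CyclotomicField m L) m _ a hm hζ (hRgood a ha).1 (hRgood a ha).2
      exact ⟨C, fun _ => hC⟩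
    · exact ⟨0, fun h => absurd h ha⟩
  choose C hC using hex
  refine ⟨(∑ a ∈ R, |C a|) / (d : ℝ), fun s hs1 hs2 => ?_⟩
  have hcross := H31.sum_tsum_frobEq_le L (CyclotomicField m L) g R hRres s hs1
  have hlog : 0 ≤ Real.log (1 / (s - 1)) := by
    apply Real.log_nonneg
    rw [le_div_iff₀ (by linarith)]
    linarith
  have hsum : (R.card : ℝ) * Real.log (1 / (s - 1)) - ∑ a ∈ R, |C a| ≤
      ∑ a ∈ R, ∑' w : frobEq (CyclotomicField m L) a,
        FrobDensity.wt (CyclotomicField m L) s w.1 := by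
    have : ∑ a ∈ R, (Real.log (1 / (s - 1)) - |C a|) ≤
        ∑ a ∈ R, ∑' w : frobEq (CyclotomicField m L) a,
          FrobDensity.wt (CyclotomicField m L) s w.1 := by
      refine Finset.sum_le_sum (fun a ha => ?_)
      have h1 := hC a ha s hs1 hs2
      have h2 : C a ≤ |C a| := le_abs_self _
      linarith
    rw [Finset.sum_sub_distrib, Finset.sum_const, nsmul_eq_mul] at this
    exact this
  have hmain : (R.card : ℝ) * Real.log (1 / (s - 1)) - ∑ a ∈ R, |C a| ≤
      (d : ℝ) * ∑' w : frobEq L g, FrobDensity.wt L s w.1 := hsum.trans hcross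
  have hkey : (1 - η) * (d : ℝ) * Real.log (1 / (s - 1)) - ∑ a ∈ R, |C a| ≤
      (d : ℝ) * ∑' w : frobEq L g, FrobDensity.wt L s w.1 := by
    have := mul_le_mul_of_nonneg_right hRbig hlog
    linarith
  have hfinal : ((1 - η) * Real.log (1 / (s - 1)) - (∑ a ∈ R, |C a|) / (d : ℝ)) * (d : ℝ) ≤
      (∑' w : frobEq L g, FrobDensity.wt L s w.1) * (d : ℝ) := by
    have e : ((1 - η) * Real.log (1 / (s - 1)) - (∑ a ∈ R, |C a|) / (d : ℝ)) * (d : ℝ) =
        (1 - η) * (d : ℝ) * Real.log (1 / (s - 1)) - ∑ a ∈ R, |C a| := by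
      field_simp
    rw [e, mul_comm (∑' w : frobEq L g, FrobDensity.wt L s w.1) (d : ℝ)]
    exact hkey
  exact le_of_mul_le_mul_right hfinal hdR

end Fermat.Agent.S48.Cheb.H78
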